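import Fermat.Agent.TWGroup.H1
import Mathlib.FieldTheory.IsAlgClosed.AlgebraicClosure

/-!
# Detecting cocycles by Taylor-Wiles elements
-/

namespace Fermat.Agent.TWGroup

open Matrix OnePoint Matrix.GeneralLinearGroup MulAction

section Basic

variable {k : Type*} [Field k] [DecidableEq k]

lemma smul_line_iff (g γ : GL (Fin 2) k) :
    g • (γ • (∞ : OnePoint k)) = γ • (∞ : OnePoint k) ↔
      ∃ c : k, g.val *ᵥ (γ.val *ᵥ ![1, 0]) = c • (γ.val *ᵥ ![1, 0]) := by
  have h1 : g • (γ • (∞ : OnePoint k)) = γ • (∞ : OnePoint k) ↔ (γ⁻¹ * g * γ) 1 0 = 0 := by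
    rw [← smul_infty_eq_self_iff, mul_smul, mul_smul, inv_smul_eq_iff]
  rw [h1]
  constructor
  · intro h
    refine ⟨(γ⁻¹ * g * γ) 0 0, ?_⟩
    have h2 : (γ⁻¹ * g * γ).val *ᵥ ![1, 0] = (γ⁻¹ * g * γ) 0 0 • ![1, 0] := by
      ext i; fin_cases i
      · simp [mulVec, dotProduct, Fin.sum_univ_two]
      · simp only [mulVec, dotProduct, Fin.sum_univ_two]
        simp [h]
    rw [← mulVec_smul, ← h2, mulVec_mulVec, mulVec_mulVec, ← Units.val_mul, ← Units.val_mul]
    congr 2; group
  · rintro ⟨c, hc⟩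
    have h2 : (γ⁻¹ * g * γ).val *ᵥ ![1, 0] = c • ![1, 0] := by
      have h3 : (γ⁻¹).val *ᵥ (g.val *ᵥ (γ.val *ᵥ ![1, 0])) = (γ⁻¹).val *ᵥ (c • (γ.val *ᵥ ![1, 0])) := by
        rw [hc]
      rw [mulVec_smul, mulVec_mulVec, mulVec_mulVec, mulVec_mulVec, inv_mul_val, one_mulVec] at h3
      rw [← h3, Units.val_mul, Units.val_mul]
    have h4 := congrFun h2 1
    simp only [mulVec, dotProduct, Fin.sum_univ_two] at h4
    simpa using h4

lemma noStableLine_iff {Γ : Type*} [Group Γ] (r : Γ →* GL (Fin 2) k) :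
    NoStableLine r ↔ ∀ x : OnePoint k, ∃ σ, r σ • x ≠ x := by
  constructor
  · intro h x
    obtain ⟨γ, rfl⟩ := exists_smul_infty_eq x
    have hv : γ.val *ᵥ ![1, 0] ≠ 0 := by
      intro h0
      have h1 : (γ⁻¹).val *ᵥ (γ.val *ᵥ ![1, 0]) = 0 := by rw [h0, mulVec_zero]
      rw [mulVec_mulVec, inv_mul_val, one_mulVec] at h1
      simpa using congrFun h1 0
    obtain ⟨σ, hσ⟩ := h _ hv
    refine ⟨σ, fun hx => ?_⟩
    obtain ⟨c, hc⟩ := (smul_line_iff _ _).mp hx
    exact hσ c hc
  · intro h v hv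
    obtain ⟨γ, hγ⟩ := exists_gl_mulVec_eq v hv
    obtain ⟨σ, hσ⟩ := h (γ • ∞)
    refine ⟨σ, fun c hc => hσ ?_⟩
    rw [smul_line_iff, hγ]
    exact ⟨c, hc⟩

/-- An element commuting with a non-scalar element `g` fixes the fixed points of `g`. -/
lemma commute_fix {g h : GL (Fin 2) k} (hns : g.val ∉ Set.range (Matrix.scalar (Fin 2)))
    (hgh : g * h = h * g) {x : OnePoint k} (hx : g • x = x) : h • x = x := by
  obtain ⟨γ, rfl⟩ := exists_smul_infty_eq x
  have h1 : ∀ g' : GL (Fin 2) k, g' • (γ • (∞ : OnePoint k)) = γ • (∞ : OnePoint k) ↔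
      (γ⁻¹ * g' * γ) 1 0 = 0 := by
    intro g'
    rw [← smul_infty_eq_self_iff, mul_smul, mul_smul, inv_smul_eq_iff]
  rw [h1] at hx ⊢
  rw [← scalar_conj γ] at hns
  have hcomm : (γ⁻¹ * g * γ) * (γ⁻¹ * h * γ) = (γ⁻¹ * h * γ) * (γ⁻¹ * g * γ) := by
    have e1 : (γ⁻¹ * g * γ) * (γ⁻¹ * h * γ) = γ⁻¹ * (g * h) * γ := by group
    have e2 : (γ⁻¹ * h * γ) * (γ⁻¹ * g * γ) = γ⁻¹ * (h * g) * γ := by group
    rw [e1, e2, hgh]
  generalize γ⁻¹ * g * γ = a at *
  generalize γ⁻¹ * h * γ = b at *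
  have e := congrArg Units.val hcomm
  rw [Units.val_mul, Units.val_mul] at e
  have e10 := congrFun (congrFun e 1) 0
  have e00 := congrFun (congrFun e 0) 0
  rw [mul_apply_two, mul_apply_two, hx] at e10 e00
  by_contra hb
  apply hns
  have ha : a 0 0 = a 1 1 := by
    have : b 1 0 * (a 0 0 - a 1 1) = 0 := by linear_combination -e10
    exact sub_eq_zero.mp ((mul_eq_zero.mp this).resolve_left hb)
  have ha01 : a 0 1 = 0 := by
    have : b 1 0 * a 0 1 = 0 := by linear_combination e00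
    exact (mul_eq_zero.mp this).resolve_left hb
  refine ⟨a 0 0, ?_⟩
  ext i j; fin_cases i <;> fin_cases j <;> simp [hx, ← ha, ha01]

end Basic

section Main

variable {k : Type*} [Field k] [DecidableEq k]

/-- no line of `K²` is stable under an index two subgroup. -/
def TWHyp {Γ : Type*} [Group Γ] (K : Type*) [Field K] [DecidableEq K] [Algebra k K]
    (r : Γ →* GL (Fin 2) k) : Prop :=
  ∀ D : Subgroup Γ, D.index = 2 → ∀ x : OnePoint K, ∃ σ ∈ D,
    (Matrix.GeneralLinearGroup.map (algebraMap k K) (r σ)) • x ≠ x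

lemma TWHyp.base {Γ : Type*} [Group Γ] {K : Type*} [Field K] [DecidableEq K] [Algebra k K]
    {r : Γ →* GL (Fin 2) k} (h : TWHyp K r) {D : Subgroup Γ} (hD : D.index = 2)
    (x : OnePoint k) : ∃ σ ∈ D, r σ • x ≠ x := by
  obtain ⟨σ, hσ, hx⟩ := h D hD (OnePoint.map (algebraMap k K) x)
  refine ⟨σ, hσ, fun hx' => hx ?_⟩
  have := OnePoint.map_smul (algebraMap k K) (r σ) x
  rw [← this, hx']

/-- The restriction to `ΓN` has no stable line. -/
theorem noStableLine_restrict {Γ : Type*} [Group Γ] {K : Type*} [Field K] [DecidableEq K]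
    [Algebra k K] {r : Γ →* GL (Fin 2) k} (hTW : TWHyp K r)
    (hsplit : ∀ σ, ∃ α : k, α ^ 2 - (r σ).val.trace * α + (r σ).val.det = 0)
    (hirr : ∀ x : OnePoint k, ∃ σ, r σ • x ≠ x)
    (N : Subgroup Γ) [N.Normal] (hab : ∀ σ τ : Γ, σ * τ * σ⁻¹ * τ⁻¹ ∈ N)
    (hN1 : ∀ σ ∈ N, (r σ).val.det = 1) (x : OnePoint k) : ∃ σ ∈ N, r σ • x ≠ x := by
  by_contra hcon
  push Not at hcon
  let _ : MulAction Γ (OnePoint k) := MulAction.compHom (OnePoint k) r
  have hact : ∀ (σ : Γ) (y : OnePoint k), σ • y = r σ • y := fun _ _ => rfl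
  by_cases hA : ∃ σ₀ ∈ N, (r σ₀).val ∉ Set.range (Matrix.scalar (Fin 2))
  · obtain ⟨σ₀, hσ₀, hns⟩ := hA
    -- the orbit of x is fixed by N
    have horb : ∀ y ∈ orbit Γ x, r σ₀ • y = y := by
      rintro _ ⟨γ, rfl⟩
      have h1 : γ⁻¹ * σ₀ * γ ∈ N := by
        have := Subgroup.Normal.conj_mem ‹N.Normal› σ₀ hσ₀ γ⁻¹
        rwa [inv_inv] at this
      have h2 := hcon _ h1
      rw [map_mul, map_mul, mul_smul, mul_smul, map_inv, inv_smul_eq_iff] at h2
      exact h2
    have hle : (orbit Γ x).ncard ≤ 2 := by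
      rcases fixed_of_fixed (r σ₀) hns (hcon σ₀ hσ₀) with ⟨_, hx⟩ | ⟨_, x₂, _, hx⟩
      · have : orbit Γ x ⊆ {x} := fun y hy => (hx y).mp (horb y hy)
        exact (Set.ncard_le_ncard this (Set.finite_singleton _)).trans (by simp)
      · have : orbit Γ x ⊆ {x, x₂} := fun y hy => (hx y).mp (horb y hy)
        exact (Set.ncard_le_ncard this (Set.toFinite _)).trans (Set.ncard_insert_le _ _ |>.trans (by simp))
    have hidx : (stabilizer Γ x).index = (orbit Γ x).ncard := MulAction.index_stabilizer ..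
    have hfin : (orbit Γ x).Finite := by
      rcases fixed_of_fixed (r σ₀) hns (hcon σ₀ hσ₀) with ⟨_, hx⟩ | ⟨_, x₂, _, hx⟩
      · have : orbit Γ x ⊆ {x} := fun y hy => (hx y).mp (horb y hy)
        exact (Set.finite_singleton _).subset this
      · have : orbit Γ x ⊆ {x, x₂} := fun y hy => (hx y).mp (horb y hy)
        exact (Set.toFinite _).subset this
    have hpos : 0 < (orbit Γ x).ncard := by
      rw [Set.ncard_pos hfin]
      exact ⟨x, mem_orbit_self x⟩
    have h12 : (stabilizer Γ x).index = 1 ∨ (stabilizer Γ x).index = 2 := by omega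
    rcases h12 with h | h
    · rw [Subgroup.index_eq_one] at h
      obtain ⟨σ, hσ⟩ := hirr x
      apply hσ
      have : σ ∈ stabilizer Γ x := by rw [h]; trivial
      exact this
    · obtain ⟨σ, hσ, hx⟩ := hTW.base h x
      exact hx hσ
  · push Not at hA
    -- all of N is scalar ±1
    have hns : ∃ γ₀ : Γ, (r γ₀).val ∉ Set.range (Matrix.scalar (Fin 2)) := by
      by_contra hall
      push Not at hall
      obtain ⟨σ, hσ⟩ := hirr x
      obtain ⟨a, ha⟩ := hall σ
      exact hσ (scalar_smul ha.symm x)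
    obtain ⟨γ₀, hγ₀⟩ := hns
    obtain ⟨α, hα⟩ := hsplit γ₀
    obtain ⟨x₁, hx₁⟩ := exists_fixed (r γ₀) α hα
    have hcentral : ∀ σ ∈ N, ∀ g : GL (Fin 2) k, r σ * g = g * r σ := by
      intro σ hσ g
      obtain ⟨a, ha⟩ := hA σ hσ
      apply Units.ext
      rw [Units.val_mul, Units.val_mul, ← ha]
      exact (Matrix.scalar_commute a (fun r => mul_comm _ _) g.val).eq
    -- the commutator homomorphism
    let φ : Γ →* GL (Fin 2) k :=
      { toFun := fun σ => r (σ * γ₀ * σ⁻¹ * γ₀⁻¹)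
        map_one' := by simp
        map_mul' := by
          intro σ τ
          have h1 := hcentral _ (hab τ γ₀) (r σ⁻¹)
          have h2 : σ * τ * γ₀ * (σ * τ)⁻¹ * γ₀⁻¹ =
              σ * (τ * γ₀ * τ⁻¹ * γ₀⁻¹) * (γ₀ * σ⁻¹ * γ₀⁻¹) := by group
          have h3 := hcentral _ (hab τ γ₀) (r (γ₀ * σ⁻¹ * γ₀⁻¹))
          rw [h2, map_mul, map_mul, mul_assoc, h3, ← mul_assoc, ← map_mul]
          congr 2
          group }
    have hφpm : ∀ σ, φ σ = 1 ∨ φ σ = -1 := by
      intro σ
      have hmem := hab σ γ₀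
      obtain ⟨a, ha⟩ := hA _ hmem
      have hd := hN1 _ hmem
      have hφ : φ σ = r (σ * γ₀ * σ⁻¹ * γ₀⁻¹) := rfl
      rw [← ha] at hd
      have ha2 : a * a = 1 := by
        rw [det_fin_two] at hd; simpa using hd
      rcases mul_self_eq_one_iff.mp ha2 with h | h
      · left; apply Units.ext; rw [hφ, ← ha, h]; simp
      · right; apply Units.ext; rw [hφ, ← ha, h]; ext i j; fin_cases i <;> fin_cases j <;> simp
    have hker : ∀ σ ∈ φ.ker, r σ • x₁ = x₁ := by
      intro σ hσ
      rw [MonoidHom.mem_ker] at hσ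
      have h1 : r (σ * γ₀ * σ⁻¹ * γ₀⁻¹) = 1 := hσ
      apply commute_fix hγ₀ _ hx₁
      rw [map_mul, map_mul, map_mul, map_inv, map_inv, mul_inv_eq_one] at h1
      rw [mul_inv_eq_iff_eq_mul] at h1
      exact h1.symm
    have hrange : (φ.range : Set (GL (Fin 2) k)) ⊆ {1, -1} := by
      rintro _ ⟨σ, rfl⟩
      exact hφpm σ
    have hidx : φ.ker.index = Nat.card φ.range := Subgroup.index_ker φ
    have hle : Nat.card φ.range ≤ 2 := by
      have h1 : Nat.card φ.range = (φ.range : Set (GL (Fin 2) k)).ncard := rfl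
      rw [h1]
      exact (Set.ncard_le_ncard hrange (Set.toFinite _)).trans
        (Set.ncard_insert_le _ _ |>.trans (by simp))
    have hpos : 0 < Nat.card φ.range := by
      have : Finite φ.range := (Set.toFinite {1, -1}).subset hrange
      exact Nat.card_pos
    have h12 : φ.ker.index = 1 ∨ φ.ker.index = 2 := by omega
    rcases h12 with h | h
    · rw [Subgroup.index_eq_one] at h
      obtain ⟨σ, hσ⟩ := hirr x₁
      exact hσ (hker σ (by rw [h]; trivial))
    · obtain ⟨σ, hσ, hx⟩ := hTW.base h x₁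
      exact hx (hker σ hσ)

omit [DecidableEq k] in
lemma mul_self_of_trace_zero (X : Matrix (Fin 2) (Fin 2) k) (hX : X.trace = 0) :
    X * X = Matrix.scalar (Fin 2) (-X.det) := by
  rw [trace_fin_two] at hX
  have h11 : X 1 1 = -X 0 0 := by linear_combination hX
  ext i j
  rw [mul_apply_two, det_fin_two]
  fin_cases i <;> fin_cases j <;> simp [h11] <;> ring

/-- No invariants in `ad⁰ ⊗ det`. -/
theorem no_invariants {Γ : Type*} [Group Γ] {K : Type*} [Field K] [DecidableEq K] [IsAlgClosed K]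
    [Algebra k K] {r : Γ →* GL (Fin 2) k} (hTW : TWHyp K r) (h2 : (2 : k) ≠ 0)
    (hirr : ∀ x : OnePoint K, ∃ σ, (Matrix.GeneralLinearGroup.map (algebraMap k K) (r σ)) • x ≠ x)
    (X : Matrix (Fin 2) (Fin 2) k) (hXtr : X.trace = 0) (hX : ∀ σ, tact (r σ) X = X) : X = 0 := by
  by_contra hX0
  have h2K : (2 : K) ≠ 0 := by
    have h : algebraMap k K 2 ≠ 0 := by
      rw [Ne, map_eq_zero]; exact h2
    rwa [map_ofNat] at h
  -- relation
  have hrel : ∀ σ, (r σ).val.det • ((r σ).val * X) = X * (r σ).val := by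
    intro σ
    have h1 := congrArg (fun Y => Y * (r σ).val) (hX σ)
    simp only [tact] at h1
    rw [Matrix.smul_mul, mul_assoc, inv_mul_val, mul_one] at h1
    exact h1
  by_cases hdX : X.det = 0
  · -- nilpotent: 1 + X is parabolic
    have hXX : X * X = 0 := by rw [mul_self_of_trace_zero X hXtr, hdX]; simp
    -- the elements 1 + c X
    have hXcd : ∀ c d : k, (c • X) * (d • X) = 0 := by
      intro c d
      rw [Matrix.smul_mul, Matrix.mul_smul, hXX]; simp
    let u : k → GL (Fin 2) k := fun c => ⟨1 + c • X, 1 - c • X, by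
      rw [mul_sub, add_mul, add_mul, hXcd, mul_one, one_mul]; simp, by
      rw [sub_mul, mul_add, mul_add, hXcd, mul_one, one_mul]; simp⟩
    have hu : ∀ c, (u c).val = 1 + c • X := fun c => rfl
    have hucomm : ∀ c d, u c * u d = u d * u c := by
      intro c d
      apply Units.ext
      rw [Units.val_mul, Units.val_mul, hu, hu, mul_add, add_mul, mul_add, add_mul, add_mul,
        add_mul, hXcd, hXcd]
      simp only [mul_one, one_mul, add_zero]
      abel
    have hX01 : X 1 1 = -X 0 0 := by rw [trace_fin_two] at hXtr; linear_combination hXtr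
    have huns : ∀ c, c ≠ 0 → (u c).val ∉ Set.range (Matrix.scalar (Fin 2)) := by
      rintro c hc ⟨a, ha⟩
      rw [hu] at ha
      have e01 := congrFun (congrFun ha 0) 1
      have e10 := congrFun (congrFun ha 1) 0
      have e00 := congrFun (congrFun ha 0) 0
      have e11 := congrFun (congrFun ha 1) 1
      simp [hc] at e01 e10 e00 e11
      rw [hX01] at e11
      apply hX0
      have hx0 : X 0 0 = 0 := by
        have : (2 * c) * X 0 0 = 0 := by linear_combination e11 - e00
        exact (mul_eq_zero.mp this).resolve_left (mul_ne_zero h2 hc)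
      ext i j; fin_cases i <;> fin_cases j
      · exact hx0
      · exact e01
      · exact e10
      · simp [hX01, hx0]
    have hdisc : ∀ c, (u c).val.discr = 0 := by
      intro c
      rw [Matrix.discr_fin_two, hu, trace_fin_two, det_fin_two]
      rw [det_fin_two, hX01] at hdX
      simp [hX01]
      linear_combination -4 * c ^ 2 * hdX
    have hupar : ∀ c, c ≠ 0 → (u c).IsParabolic := fun c hc => ⟨huns c hc, hdisc c⟩
    -- common fixed point
    obtain ⟨x, hx⟩ := exists_fixed (u 1) 1 (by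
      have := hdisc 1
      have h3 : (u 1).val.trace = 2 := by
        rw [hu, trace_fin_two]; simp [hX01]; ring
      rw [Matrix.discr_fin_two, h3] at this
      have h5 : (4 : k) * (1 - (u 1).val.det) = 0 := by linear_combination this
      have h4 : (4 : k) ≠ 0 := by
        have : (4 : k) = 2 * 2 := by norm_num
        rw [this]; exact mul_ne_zero h2 h2
      have h6 := (mul_eq_zero.mp h5).resolve_left h4
      rw [h3]; linear_combination -h6)
    have hxc : ∀ c, u c • x = x := fun c => commute_fix (huns 1 one_ne_zero) (hucomm 1 c) hx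
    obtain ⟨σ, hσ⟩ := hirr (OnePoint.map (algebraMap k K) x)
    apply hσ
    have := OnePoint.map_smul (algebraMap k K) (r σ) x
    rw [← this]
    congr 1
    -- r σ • x = x
    have hdσ : (r σ).val.det ≠ 0 := (r σ).det_ne_zero
    have h3 : r σ * u 1 = u ((r σ).val.det)⁻¹ * r σ := by
      apply Units.ext
      rw [Units.val_mul, Units.val_mul, hu, hu, mul_add, add_mul, mul_one, one_mul, one_smul,
        Matrix.smul_mul, ← hrel σ, smul_smul, inv_mul_cancel₀ hdσ, one_smul]
    have h4 : u ((r σ).val.det)⁻¹ • (r σ • x) = r σ • x := by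
      rw [← mul_smul, ← h3, mul_smul, hx]
    rcases fixed_of_fixed _ (huns _ (inv_ne_zero hdσ)) (hxc ((r σ).val.det)⁻¹) with ⟨_, h⟩ | ⟨h, _⟩
    · exact (h _).mp h4
    · exact absurd (hupar _ (inv_ne_zero hdσ)) h
  · -- semisimple: work over K
    have hXXs := mul_self_of_trace_zero X hXtr
    have hdet2 : ∀ σ, (r σ).val.det = 1 ∨ (r σ).val.det = -1 := by
      intro σ
      set d := (r σ).val.det with hd
      have h1 : d • (d • ((r σ).val * X * X)) = X * X * (r σ).val := by
        rw [mul_assoc X X, ← hrel σ, ← hd, Matrix.mul_smul, ← mul_assoc, ← hrel σ, ← hd,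
          Matrix.smul_mul]
      rw [mul_assoc, hXXs, ← (Matrix.scalar_commute (-X.det) (fun r => mul_comm _ _) (r σ).val).eq,
        smul_smul] at h1
      have h3 : (d * d) • ((r σ).val) = (r σ).val := by
        have h4 : Matrix.scalar (Fin 2) (-X.det)⁻¹ * ((d * d) •
            (Matrix.scalar (Fin 2) (-X.det) * (r σ).val)) =
            Matrix.scalar (Fin 2) (-X.det)⁻¹ * (Matrix.scalar (Fin 2) (-X.det) * (r σ).val) := by
          rw [h1]
        rw [Matrix.mul_smul, ← mul_assoc, ← map_mul,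
          inv_mul_cancel₀ (neg_ne_zero.mpr hdX), map_one, one_mul] at h4
        exact h4
      have h5 : d * d = 1 := by
        have h6 := congrArg (fun M => (M * ((r σ)⁻¹).val) 0 0) h3
        simp only [Matrix.smul_mul, mul_inv_val] at h6
        simpa using h6
      exact mul_self_eq_one_iff.mp h5
    let D : Subgroup Γ := ((Matrix.GeneralLinearGroup.det (n := Fin 2) (R := k)).comp r).ker
    have hD : ∀ σ, σ ∈ D ↔ (r σ).val.det = 1 := by
      intro σ
      rw [MonoidHom.mem_ker, Units.ext_iff]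
      rfl
    -- X over K
    let XK : GL (Fin 2) K := Matrix.GeneralLinearGroup.map (algebraMap k K)
      (GeneralLinearGroup.mkOfDetNeZero X hdX)
    have hXK : XK.val = X.map (algebraMap k K) := rfl
    have hXKns : XK.val ∉ Set.range (Matrix.scalar (Fin 2)) := by
      rintro ⟨a, ha⟩
      rw [hXK] at ha
      have e01 := congrFun (congrFun ha 0) 1
      have e10 := congrFun (congrFun ha 1) 0
      have e00 := congrFun (congrFun ha 0) 0
      have e11 := congrFun (congrFun ha 1) 1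
      have hX01 : X 1 1 = -X 0 0 := by rw [trace_fin_two] at hXtr; linear_combination hXtr
      simp [hX01] at e01 e10 e00 e11
      have hx0 : X 0 0 = 0 := by
        have h7 : (2 : K) * algebraMap k K (X 0 0) = 0 := by linear_combination e11 - e00
        have h8 := (mul_eq_zero.mp h7).resolve_left h2K
        exact (map_eq_zero _).mp h8
      apply hX0
      ext i j; fin_cases i <;> fin_cases j
      · exact hx0
      · simpa using e01.symm
      · simpa using e10.symm
      · simp [hX01, hx0]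
    obtain ⟨α, hα⟩ : ∃ α : K, α ^ 2 - XK.val.trace * α + XK.val.det = 0 := by
      have h7 : XK.val.trace = 0 := by
        rw [hXK, trace_fin_two]
        rw [trace_fin_two] at hXtr
        simp only [Matrix.map_apply]
        rw [← map_add, hXtr, map_zero]
      obtain ⟨α, hα⟩ := IsAlgClosed.exists_pow_nat_eq (-XK.val.det) (n := 2) (by norm_num)
      exact ⟨α, by rw [h7, hα]; ring⟩
    obtain ⟨x, hx⟩ := exists_fixed XK α hα
    have hDx : ∀ σ ∈ D, (Matrix.GeneralLinearGroup.map (algebraMap k K) (r σ)) • x = x := by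
      intro σ hσ
      rw [hD] at hσ
      apply commute_fix hXKns _ hx
      have h7 := hrel σ
      rw [hσ, one_smul] at h7
      rw [← map_mul, ← map_mul]
      congr 1
      apply Units.ext
      exact h7.symm
    have hrange : ∀ a : kˣ, a ∈ ((Matrix.GeneralLinearGroup.det (n := Fin 2) (R := k)).comp r).range →
        a ∈ ({1, -1} : Set kˣ) := by
      rintro _ ⟨σ, rfl⟩
      rcases hdet2 σ with h | h
      · left; exact Units.ext h
      · right; exact Units.ext h
    have hidx : D.index = Nat.card ((Matrix.GeneralLinearGroup.det (n := Fin 2) (R := k)).comp r).range :=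
      Subgroup.index_ker _
    have hle : Nat.card ((Matrix.GeneralLinearGroup.det (n := Fin 2) (R := k)).comp r).range ≤ 2 := by
      have h1 : Nat.card ((Matrix.GeneralLinearGroup.det (n := Fin 2) (R := k)).comp r).range =
        (((Matrix.GeneralLinearGroup.det (n := Fin 2) (R := k)).comp r).range : Set kˣ).ncard := rfl
      rw [h1]
      exact (Set.ncard_le_ncard hrange (Set.toFinite _)).trans
        (Set.ncard_insert_le _ _ |>.trans (by simp))
    have hpos : 0 < Nat.card ((Matrix.GeneralLinearGroup.det (n := Fin 2) (R := k)).comp r).range := by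
      have : Finite ((Matrix.GeneralLinearGroup.det (n := Fin 2) (R := k)).comp r).range :=
        (Set.toFinite {1, -1}).subset hrange
      exact Nat.card_pos
    have h12 : D.index = 1 ∨ D.index = 2 := by omega
    rcases h12 with h | h
    · rw [Subgroup.index_eq_one] at h
      obtain ⟨σ, hσ⟩ := hirr x
      exact hσ (hDx σ (by rw [h]; trivial))
    · obtain ⟨σ, hσ, hx'⟩ := hTW D h x
      exact hx' (hDx σ hσ)

/-- **Detection theorem.** A non-trivial class of `H¹(Γ, ad⁰(1))` is detected by a regular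
element of the abelian-quotient subgroup `N`. -/
theorem exists_detect [Fintype k] {Γ : Type*} [Group Γ] {K : Type*} [Field K] [DecidableEq K]
    [IsAlgClosed K] [Algebra k K] (p : ℕ) [Fact p.Prime] [CharP k p] {r : Γ →* GL (Fin 2) k}
    (hTW : TWHyp K r) (h2 : (2 : k) ≠ 0)
    (hirr : ∀ x : OnePoint K, ∃ σ, (Matrix.GeneralLinearGroup.map (algebraMap k K) (r σ)) • x ≠ x)
    (hsplit : ∀ σ, ∃ α : k, α ^ 2 - (r σ).val.trace * α + (r σ).val.det = 0)
    (hdet : ∀ n : ℕ, ¬ p ∣ n → ∃ σ, (r σ).val.det = n)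
    (N : Subgroup Γ) [N.Normal] (hab : ∀ σ τ : Γ, σ * τ * σ⁻¹ * τ⁻¹ ∈ N)
    (hN1 : ∀ σ ∈ N, (r σ).val.det = 1)
    (ψ : Γ → Matrix (Fin 2) (Fin 2) k) (htr : ∀ σ, (ψ σ).trace = 0)
    (hcoc : ∀ σ τ, ψ (σ * τ) = ψ σ + tact (r σ) (ψ τ))
    (hnc : ¬ ∃ X : Matrix (Fin 2) (Fin 2) k, X.trace = 0 ∧ ∀ σ, ψ σ = tact (r σ) X - X) :
    ∃ σ ∈ N, (r σ).val.trace ^ 2 ≠ 4 ∧ (ψ σ * (r σ).val).trace ≠ 0 := by
  have hirrk : ∀ x : OnePoint k, ∃ σ, r σ • x ≠ x := by
    intro x
    obtain ⟨σ, hσ⟩ := hirr (OnePoint.map (algebraMap k K) x)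
    refine ⟨σ, fun h => hσ ?_⟩
    have := OnePoint.map_smul (algebraMap k K) (r σ) x
    rw [← this, h]
  have hψ1 : ψ 1 = 0 := by
    have := hcoc 1 1
    rw [mul_one, map_one, tact_one] at this
    exact left_eq_add.mp this
  -- step (iii): ψ does not vanish on ker r ∩ N
  have hex : ∃ τ ∈ N, r τ = 1 ∧ ψ τ ≠ 0 := by
    by_contra hcon
    push Not at hcon
    apply hnc
    have hker : ∀ x, r x = 1 → ψ x = 0 := by
      intro x hx
      apply no_invariants hTW h2 hirr (ψ x) (htr x)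
      intro γ
      have h1 : ψ (γ * x * γ⁻¹ * x⁻¹) = 0 := by
        apply hcon _ (hab γ x)
        rw [map_mul, map_mul, map_mul, hx, map_inv, map_inv, hx]; group
      have h3 : ψ (γ * x * γ⁻¹) = ψ x := by
        have h4 : γ * x * γ⁻¹ = (γ * x * γ⁻¹ * x⁻¹) * x := by group
        have h5 : r (γ * x * γ⁻¹ * x⁻¹) = 1 := by
          rw [map_mul, map_mul, map_mul, hx, map_inv, map_inv, hx]; group
        rw [h4, hcoc, h1, h5, tact_one, zero_add]
      have h6 : ψ (γ * x * γ⁻¹) = tact (r γ) (ψ x) := by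
        rw [hcoc, hcoc, map_mul, hx, mul_one]
        have h7 := hcoc γ γ⁻¹
        rw [mul_inv_cancel, hψ1] at h7
        have h8 : tact (r γ) (ψ γ⁻¹) = -ψ γ := by
          rw [eq_neg_iff_add_eq_zero, add_comm]; exact h7.symm
        rw [h8]; abel
      rw [← h6, h3]
    -- inflation
    classical
    let f : GL (Fin 2) k → Matrix (Fin 2) (Fin 2) k := fun g =>
      if h : ∃ σ, r σ = g then ψ h.choose else 0
    have hwd : ∀ σ τ, r σ = r τ → ψ σ = ψ τ := by
      intro σ τ h
      have h1 : r (τ⁻¹ * σ) = 1 := by rw [map_mul, map_inv, h, inv_mul_cancel]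
      have h3 := hcoc τ (τ⁻¹ * σ)
      rw [mul_inv_cancel_left, hker _ h1, tact_zero, add_zero] at h3
      exact h3
    have hfr : ∀ σ, f (r σ) = ψ σ := by
      intro σ
      have h : ∃ τ, r τ = r σ := ⟨σ, rfl⟩
      simp only [f, dif_pos h]
      exact hwd _ _ h.choose_spec
    have hf : IsCoc r.range f := by
      constructor
      · rintro _ ⟨σ, rfl⟩
        rw [hfr]; exact htr σ
      · rintro _ ⟨σ, rfl⟩ _ ⟨τ, rfl⟩
        rw [← map_mul, hfr, hfr, hfr, hcoc]
    obtain ⟨X, hXtr, hX⟩ := H1_vanishing h2 p (G := r.range)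
      (by rintro _ ⟨σ, rfl⟩; exact hsplit σ)
      (by
        intro n hn
        obtain ⟨σ, hσ⟩ := hdet n hn
        exact ⟨r σ, ⟨σ, rfl⟩, hσ⟩)
      (by
        intro x
        obtain ⟨σ, hσ⟩ := hirrk x
        exact ⟨r σ, ⟨σ, rfl⟩, hσ⟩) hf
    exact ⟨X, hXtr, fun σ => by rw [← hfr, hX _ ⟨σ, rfl⟩]⟩
  obtain ⟨τ, hτN, hτr, hτ⟩ := hex
  -- step (iv): regular element
  obtain ⟨σ₀, hσ₀, hreg⟩ := exists_regular_trace_ne_zero h2 (r := r.comp N.subtype)
    (fun σ => hN1 σ.1 σ.2)
    (by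
      intro σ
      obtain ⟨α, hα⟩ := hsplit σ.1
      refine ⟨α, ?_⟩
      rw [hN1 σ.1 σ.2] at hα
      exact hα)
    ((noStableLine_iff _).mpr (by
      intro x
      obtain ⟨σ, hσ, hx⟩ := noStableLine_restrict hTW hsplit hirrk N hab hN1 x
      exact ⟨⟨σ, hσ⟩, hx⟩)) (ψ τ) (htr τ) hτ
  have e1 : (r.comp N.subtype) σ₀ = r σ₀.1 := rfl
  rw [e1] at hσ₀ hreg
  by_cases hc : (ψ σ₀.1 * (r σ₀.1).val).trace = 0
  · refine ⟨τ * σ₀.1, N.mul_mem hτN σ₀.2, ?_, ?_⟩
    · rw [map_mul, hτr, one_mul]; exact hσ₀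
    · rw [hcoc, hτr, tact_one, map_mul, hτr, one_mul, add_mul, trace_add, hc, add_zero]
      exact hreg
  · exact ⟨σ₀.1, σ₀.2, hσ₀, hc⟩

end Main

end Fermat.Agent.TWGroup
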