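import Fermat.Agent.TW.Defs
import Fermat.Agent.TWGroup.Detect
import Mathlib.FieldTheory.Minpoly.IsConjRoot
import Mathlib.RingTheory.Polynomial.Cyclotomic.Roots
import Mathlib.RingTheory.RootsOfUnity.AlgebraicallyClosed

/-!
# S56, part (B): existence of Taylor-Wiles elements and detection of cocycles
-/

set_option autoImplicit false

namespace Fermat.Agent.TWGroup

open Matrix OnePoint Matrix.GeneralLinearGroup Polynomial
open Fermat.Agent.S53norm (GQ M2)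
open Fermat.Agent.TW

section Cyclotomic

/-- the subgroup fixing the `m`-th roots of unity. -/
def fixMu (m : ℕ) : Subgroup GQ where
  carrier := {σ | ∀ μ : AlgebraicClosure ℚ, μ ^ m = 1 → σ μ = μ}
  one_mem' := fun _ _ => rfl
  mul_mem' := by
    intro σ τ hσ hτ μ hμ
    rw [AlgEquiv.mul_apply, hτ μ hμ, hσ μ hμ]
  inv_mem' := by
    intro σ hσ μ hμ
    have h1 : σ⁻¹ (σ μ) = μ := by
      rw [← AlgEquiv.mul_apply, inv_mul_cancel]; rfl
    rwa [hσ μ hμ] at h1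

lemma mem_fixMu {m : ℕ} {σ : GQ} :
    σ ∈ fixMu m ↔ ∀ μ : AlgebraicClosure ℚ, μ ^ m = 1 → σ μ = μ := Iff.rfl

instance (m : ℕ) : (fixMu m).Normal where
  conj_mem := by
    intro σ hσ g μ hμ
    rw [AlgEquiv.mul_apply, AlgEquiv.mul_apply, hσ _ (by rw [← map_pow, hμ, map_one]),
      ← AlgEquiv.mul_apply, mul_inv_cancel]
    rfl

lemma commutator_mem_fixMu {m : ℕ} (hm : m ≠ 0) (σ τ : GQ) : σ * τ * σ⁻¹ * τ⁻¹ ∈ fixMu m := by
  have : NeZero m := ⟨hm⟩
  have : NeZero (m : AlgebraicClosure ℚ) := ⟨by exact_mod_cast hm⟩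
  obtain ⟨ζ, hζ⟩ := HasEnoughRootsOfUnity.exists_primitiveRoot (AlgebraicClosure ℚ) m
  have hpow : ∀ g : GQ, ∃ a : ℕ, ∀ μ : AlgebraicClosure ℚ, μ ^ m = 1 → g μ = μ ^ a := by
    intro g
    obtain ⟨a, -, ha⟩ := hζ.eq_pow_of_pow_eq_one (ξ := g ζ) (by rw [← map_pow, hζ.pow_eq_one, map_one])
    refine ⟨a, fun μ hμ => ?_⟩
    obtain ⟨b, -, rfl⟩ := hζ.eq_pow_of_pow_eq_one hμ
    rw [map_pow, ← ha, ← pow_mul, ← pow_mul, mul_comm]
  obtain ⟨a, ha⟩ := hpow σ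
  obtain ⟨b, hb⟩ := hpow τ
  have hcomm : ∀ μ : AlgebraicClosure ℚ, μ ^ m = 1 → σ (τ μ) = τ (σ μ) := by
    intro μ hμ
    rw [ha μ hμ, hb μ hμ, map_pow, map_pow, ha μ hμ, hb μ hμ, ← pow_mul, ← pow_mul, mul_comm]
  intro μ hμ
  rw [AlgEquiv.mul_apply, AlgEquiv.mul_apply, AlgEquiv.mul_apply,
    hcomm _ (by rw [← map_pow, ← map_pow, hμ, map_one, map_one]),
    ← AlgEquiv.mul_apply σ, mul_inv_cancel, AlgEquiv.one_apply, ← AlgEquiv.mul_apply,
    mul_inv_cancel, AlgEquiv.one_apply]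

/-- Surjectivity of the cyclotomic character. -/
lemma exists_pow_apply {p : ℕ} (hp : p.Prime) {n : ℕ} (hn : ¬ p ∣ n) :
    ∃ σ : GQ, ∀ μ : AlgebraicClosure ℚ, μ ^ p = 1 → σ μ = μ ^ n := by
  have : NeZero p := ⟨hp.ne_zero⟩
  have : NeZero (p : AlgebraicClosure ℚ) := ⟨by exact_mod_cast hp.ne_zero⟩
  obtain ⟨ζ, hζ⟩ := HasEnoughRootsOfUnity.exists_primitiveRoot (AlgebraicClosure ℚ) p
  have hζn : IsPrimitiveRoot (ζ ^ n) p :=
    hζ.pow_of_coprime n ((Nat.Prime.coprime_iff_not_dvd hp).mpr hn).symm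
  have h1 : IsConjRoot ℚ ζ (ζ ^ n) := by
    rw [IsConjRoot, ← cyclotomic_eq_minpoly_rat hζ hp.pos, ← cyclotomic_eq_minpoly_rat hζn hp.pos]
  have halg : Algebra.IsAlgebraic ℚ (AlgebraicClosure ℚ) := AlgebraicClosure.isAlgebraic ℚ
  have hcl : IsAlgClosure ℚ (AlgebraicClosure ℚ) := ⟨AlgebraicClosure.isAlgClosed ℚ, halg⟩
  have hnorm : Normal ℚ (AlgebraicClosure ℚ) := IsAlgClosure.normal ℚ _
  obtain ⟨σ, hσ⟩ := (isConjRoot_iff_exists_algEquiv).mp h1.symm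
  refine ⟨σ, fun μ hμ => ?_⟩
  obtain ⟨b, -, rfl⟩ := hζ.eq_pow_of_pow_eq_one hμ
  rw [map_pow, hσ, ← pow_mul, ← pow_mul, mul_comm]

end Cyclotomic

section Main

variable {k : Type} [Field k]

/-- the matrix representation as a homomorphism to `GL₂`. -/
noncomputable def toGL (r : GQ →* M2 k) : GQ →* GL (Fin 2) k := r.toHomUnits

lemma toGL_val (r : GQ →* M2 k) (σ : GQ) : (toGL r σ).val = r σ := rfl

lemma toGL_inv_val (r : GQ →* M2 k) (σ : GQ) : ((toGL r σ)⁻¹).val = r σ⁻¹ := by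
  rw [← map_inv]; rfl

lemma tact_toGL (r : GQ →* M2 k) (σ : GQ) (X : M2 k) : tact (toGL r σ) X = act r 1 σ X := by
  rw [tact, toGL_val, toGL_inv_val, act_one_apply]

variable {r : GQ →* M2 k} {p : ℕ}

lemma split_of_charpoly (hsplit : ∀ σ, ∃ α β : k, (r σ).charpoly = (X - C α) * (X - C β)) (σ : GQ) :
    ∃ α : k, α ^ 2 - (toGL r σ).val.trace * α + (toGL r σ).val.det = 0 := by
  obtain ⟨α, β, h⟩ := hsplit σ
  refine ⟨α, ?_⟩
  rw [Matrix.charpoly_fin_two] at h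
  have h1 := congrArg (fun f => f.eval α) h
  simpa [toGL_val] using h1

open Classical in
lemma noLine_fix (hNL : NoLine r) {G : Subgroup GQ} (hG : G.index = 1 ∨ G.index = 2)
    (x : OnePoint (AlgebraicClosure k)) :
    ∃ σ ∈ G, (Matrix.GeneralLinearGroup.map (algebraMap k (AlgebraicClosure k)) (toGL r σ)) • x
      ≠ x := by
  by_contra hcon
  push Not at hcon
  obtain ⟨γ, rfl⟩ := exists_smul_infty_eq x
  have hv : γ.val *ᵥ ![1, 0] ≠ 0 := by
    intro h0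
    have h1 : (γ⁻¹).val *ᵥ (γ.val *ᵥ ![1, 0]) = 0 := by rw [h0, mulVec_zero]
    rw [mulVec_mulVec, inv_mul_val, one_mulVec] at h1
    simpa using congrFun h1 0
  exact hNL G hG _ hv (fun σ hσ => (smul_line_iff _ _).mp (hcon σ hσ))

lemma fixMu_mono {m n : ℕ} (h : m ∣ n) : fixMu n ≤ fixMu m := by
  intro σ hσ μ hμ
  obtain ⟨d, rfl⟩ := h
  exact hσ μ (by rw [pow_mul, hμ, one_pow])

lemma det_fixMu (hdet : CycDet p r) {σ : GQ} (hσ : σ ∈ fixMu p) : (r σ).det = 1 := by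
  have := hdet σ 1 (fun μ hμ => by rw [pow_one]; exact hσ μ hμ)
  simpa using this

lemma charTwo [CharP k p] (hp : p.Prime) (hp2 : p ≠ 2) : (2 : k) ≠ 0 := by
  intro h
  have h1 : ((2 : ℕ) : k) = 0 := by exact_mod_cast h
  rw [CharP.cast_eq_zero_iff k p] at h1
  exact hp2 ((Nat.prime_dvd_prime_iff_eq hp Nat.prime_two).mp h1)

/-- **Detection of cocycles by Taylor-Wiles elements.** -/
theorem twDetect [Finite k] [CharP k p] (hp : p.Prime) (hp2 : p ≠ 2) (hdet : CycDet p r)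
    (hsplit : ∀ σ, ∃ α β : k, (r σ).charpoly = (X - C α) * (X - C β)) (hNL : NoLine r) :
    TWDetect p r := by
  classical
  intro N ψ hψ hnc
  have := Fintype.ofFinite k
  have : Fact p.Prime := ⟨hp⟩
  have h2 := charTwo (k := k) hp hp2
  obtain ⟨σ, hσ, h3, h4⟩ := exists_detect (K := AlgebraicClosure k) p (r := toGL r)
    (fun D hD x => noLine_fix hNL (Or.inr hD) x) h2
    (fun x => by
      obtain ⟨σ, -, h⟩ := noLine_fix hNL (G := ⊤) (Or.inl Subgroup.index_top) x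
      exact ⟨σ, h⟩)
    (split_of_charpoly hsplit)
    (fun n hn => by
      obtain ⟨σ, hσ⟩ := exists_pow_apply hp hn
      exact ⟨σ, hdet σ n hσ⟩)
    (fixMu (p ^ (N + 1))) (commutator_mem_fixMu (pow_ne_zero _ hp.ne_zero))
    (fun σ hσ => det_fixMu hdet (fixMu_mono (dvd_pow_self p (Nat.succ_ne_zero N)) hσ))
    ψ hψ.1
    (fun σ τ => by
      rw [tact_toGL]; exact hψ.2.1 σ τ)
    (by
      rintro ⟨X, hX, h⟩
      apply hnc X hX
      funext σ
      rw [h σ, tact_toGL]; rfl)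
  have hd1 : (r σ).det = 1 :=
    det_fixMu hdet (fixMu_mono (dvd_pow_self p (Nat.succ_ne_zero N)) hσ)
  rw [toGL_val] at h3 h4
  refine ⟨σ, fixMu_mono (pow_dvd_pow p (Nat.le_succ N)) hσ, by rw [hd1, mul_one]; exact h3, ?_⟩
  intro X hX h5
  apply h4
  rw [h5, sub_mul, trace_sub, act_one_apply, hd1, one_smul, mul_assoc, r_inv_mul, mul_one,
    trace_mul_comm, sub_self]

/-- **Existence of Taylor-Wiles elements.** -/
theorem twElements [CharP k p] (hp : p.Prime) (hp2 : p ≠ 2) (hdet : CycDet p r)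
    (hsplit : ∀ σ, ∃ α β : k, (r σ).charpoly = (X - C α) * (X - C β)) (hNL : NoLine r) :
    TWElements p r := by
  classical
  intro N
  have h2 := charTwo (k := k) hp hp2
  have hTW : TWHyp (AlgebraicClosure k) (toGL r) := fun D hD x => noLine_fix hNL (Or.inr hD) x
  have hirr : ∀ x : OnePoint k, ∃ σ, toGL r σ • x ≠ x := by
    intro x
    obtain ⟨σ, -, h⟩ := noLine_fix hNL (G := ⊤) (Or.inl Subgroup.index_top)
      (OnePoint.map (algebraMap k (AlgebraicClosure k)) x)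
    refine ⟨σ, fun h' => h ?_⟩
    have := OnePoint.map_smul (algebraMap k (AlgebraicClosure k)) (toGL r σ) x
    rw [← this, h']
  have hd1 : ∀ σ ∈ fixMu (p ^ (N + 1)), (r σ).det = 1 := fun σ hσ =>
    det_fixMu hdet (fixMu_mono (dvd_pow_self p (Nat.succ_ne_zero N)) hσ)
  obtain ⟨σ, hσ, -⟩ := exists_regular_trace_ne_zero h2
    (r := (toGL r).comp (fixMu (p ^ (N + 1))).subtype)
    (fun σ => hd1 σ.1 σ.2)
    (by
      intro σ
      obtain ⟨α, hα⟩ := split_of_charpoly hsplit σ.1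
      refine ⟨α, ?_⟩
      have e1 : (toGL r σ.1).val.det = 1 := hd1 σ.1 σ.2
      rw [e1] at hα
      exact hα)
    ((noStableLine_iff _).mpr (by
      intro x
      obtain ⟨σ, hσ, hx⟩ := noStableLine_restrict hTW (split_of_charpoly hsplit) hirr
        (fixMu (p ^ (N + 1))) (commutator_mem_fixMu (pow_ne_zero _ hp.ne_zero)) hd1 x
      exact ⟨⟨σ, hσ⟩, hx⟩)) !![0, 1; 0, 0] (by simp [trace_fin_two]) (by
        intro h
        have := congrFun (congrFun h 0) 1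
        simp at this)
  exact ⟨σ.1, fixMu_mono (pow_dvd_pow p (Nat.le_succ N)) σ.2, by
    rw [hd1 σ.1 σ.2, mul_one]; exact hσ⟩

end Main

end Fermat.Agent.TWGroup
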