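import Mathlib.GroupTheory.GroupAction.Quotient
import Mathlib.GroupTheory.Sylow
import Mathlib.Tactic

/-!
# An abstract orbit counting lemma

Used to bound the order of the torus of a subgroup of `SL₂(k)` acting on `ℙ¹(k)`.
-/

namespace Fermat.Agent.TWGroup

open MulAction

section Abstract

variable {H X : Type*} [Group H] [MulAction H X]

lemma finite_orbit [Finite H] (x : X) : Finite (orbit H x) :=
  Finite.of_surjective (fun h : H => (⟨h • x, mem_orbit x h⟩ : orbit H x))
    (by rintro ⟨_, h, rfl⟩; exact ⟨h, rfl⟩)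

lemma card_orbit_mul_card_stab [Finite H] (x : X) :
    Nat.card (orbit H x) * Nat.card (stabilizer H x) = Nat.card H := by
  classical
  have := Fintype.ofFinite H
  have := finite_orbit (H := H) x
  have : Fintype (orbit H x) := Fintype.ofFinite _
  have := card_orbit_mul_card_stabilizer_eq_card_group H x
  simpa [Nat.card_eq_fintype_card] using this

lemma card_stab_smul [Finite H] (x : X) (h : H) :
    Nat.card (stabilizer H (h • x)) = Nat.card (stabilizer H x) := by
  have h1 := card_orbit_mul_card_stab (H := H) x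
  have h2 := card_orbit_mul_card_stab (H := H) (h • x)
  rw [show orbit H (h • x) = orbit H x from orbit_eq_iff.mpr (mem_orbit x h), ← h1] at h2
  have := finite_orbit (H := H) x
  have h3 : 0 < Nat.card (orbit H x) := by
    have : Nonempty (orbit H x) := ⟨⟨x, mem_orbit_self x⟩⟩
    exact Nat.card_pos
  exact Nat.eq_of_mul_eq_mul_left h3 h2

/-- Sum of an invariant function over an orbit. -/
lemma sum_orbit [Fintype X] (g : X → ℤ) (hg : ∀ (h : H) x, g (h • x) = g x)
    (x : X) [DecidablePred (· ∈ orbit H x)] :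
    ∑ y ∈ Finset.univ.filter (· ∈ orbit H x), g y = Nat.card (orbit H x) * g x := by
  have h1 : ∀ y ∈ Finset.univ.filter (· ∈ orbit H x), g y = g x := by
    intro y hy
    rw [Finset.mem_filter] at hy
    obtain ⟨h, rfl⟩ := hy.2
    exact hg h x
  rw [Finset.sum_congr rfl h1, Finset.sum_const, nsmul_eq_mul]
  congr 2
  rw [Nat.card_eq_fintype_card, ← Fintype.card_subtype]

set_option maxHeartbeats 1000000 in
theorem abstract_count [Finite H] [Fintype X] (x₀ : X) (ζ q t m : ℕ) (u : X → ℕ) (hζ : 0 < ζ)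
    (hu : ∀ x ∉ orbit H x₀, u x = 0) (hu0 : ∀ x ∈ orbit H x₀, u x = ζ * (q - 1))
    (hs0 : Nat.card (stabilizer H x₀) = ζ * q * t)
    (hsd : ∀ x : X, ζ ∣ Nat.card (stabilizer H x))
    (hsum : ∑ x : X, (Nat.card (stabilizer H x) + u x) + 2 * ζ
      = 2 * Nat.card H + ζ * Fintype.card X)
    (hm : Nat.card (orbit H x₀) = 1 + q * m) (hm1 : 1 ≤ m) (hq : 3 ≤ q) : q - 1 ≤ 2 * t := by
  classical
  have hHfin : 0 < Nat.card H := Nat.card_pos
  set N : ℕ := Nat.card H with hN
  have hos := card_orbit_mul_card_stab (H := H) x₀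
  rw [hm, hs0, ← hN] at hos
  -- the weight function
  set g : X → ℤ := fun x => (Nat.card (stabilizer H x) : ℤ) - ζ + u x with hg
  have huinv : ∀ (h : H) x, u (h • x) = u x := by
    intro h x
    by_cases hx : x ∈ orbit H x₀
    · rw [hu0 x hx, hu0 (h • x)]
      rw [← orbit_eq_iff] at hx ⊢
      rw [← hx, orbit_smul]
    · rw [hu x hx, hu (h • x)]
      intro hx'; apply hx
      rw [← orbit_eq_iff] at hx' ⊢
      rw [← hx', orbit_smul]
  have hginv : ∀ (h : H) x, g (h • x) = g x := by
    intro h x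
    simp only [hg, huinv, card_stab_smul]
  have hspos : ∀ x : X, ζ ≤ Nat.card (stabilizer H x) := fun x =>
    Nat.le_of_dvd Nat.card_pos (hsd x)
  have hgnn : ∀ x, 0 ≤ g x := by
    intro x
    have h1 := hspos x
    simp only [hg]
    have : (ζ : ℤ) ≤ Nat.card (stabilizer H x) := by exact_mod_cast h1
    have h2 : (0:ℤ) ≤ u x := by positivity
    linarith
  have hsumg : ∑ x, g x = 2 * N - 2 * ζ := by
    have h1 : ∑ x, g x = ∑ x : X, (((Nat.card (stabilizer H x) + u x : ℕ) : ℤ) - ζ) := by
      apply Finset.sum_congr rfl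
      intro x _
      simp only [hg]; push_cast; ring
    rw [h1, Finset.sum_sub_distrib, Finset.sum_const, Finset.card_univ, nsmul_eq_mul,
      ← Nat.cast_sum]
    have h2 : ((∑ x : X, (Nat.card (stabilizer H x) + u x) : ℕ) : ℤ) + 2 * ζ
      = 2 * N + ζ * Fintype.card X := by exact_mod_cast hsum
    linear_combination h2
  have hsplit : ∑ x ∈ Finset.univ.filter (· ∈ orbit H x₀), g x
      + ∑ x ∈ Finset.univ.filter (fun x => ¬ x ∈ orbit H x₀), g x = ∑ x, g x :=
    Finset.sum_filter_add_sum_filter_not _ _ _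
  have hq1 : ((q - 1 : ℕ) : ℤ) = q - 1 := by
    rw [Nat.cast_sub (by omega)]; simp
  have hg0 : g x₀ = ζ * q * t - ζ + ζ * (q - 1) := by
    simp only [hg, hs0, hu0 x₀ (mem_orbit_self x₀)]
    push_cast
    rw [hq1]
  rw [sum_orbit g hginv x₀, hm, hg0, hsumg] at hsplit
  set R := ∑ x ∈ Finset.univ.filter (fun x => ¬ x ∈ orbit H x₀), g x with hR
  have hosZ : ((1 + q * m : ℕ) : ℤ) * (ζ * q * t) = N := by exact_mod_cast hos
  push_cast at hosZ hsplit
  have hRval : R = N - 2 * ζ - (1 + q * m) * ζ * (q - 2) := by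
    linear_combination hsplit - hosZ
  have hζZ : (0 : ℤ) < ζ := by exact_mod_cast hζ
  have hqZ : (3 : ℤ) ≤ q := by exact_mod_cast hq
  have hmZ : (1 : ℤ) ≤ m := by exact_mod_cast hm1
  have ht0 : 0 < t := by
    rcases Nat.eq_zero_or_pos t with h | h
    · rw [h] at hos; simp at hos; omega
    · exact h
  by_cases hall : ∀ x, x ∉ orbit H x₀ → g x = 0
  · -- no other non-free orbit: impossible
    exfalso
    have hR0 : R = 0 := Finset.sum_eq_zero (fun x hx => hall x (Finset.mem_filter.mp hx).2)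
    rw [hR0, ← hosZ] at hRval
    have h1 : (ζ : ℤ) * ((1 + q * m) * (q * t - q + 2)) = ζ * 2 := by linear_combination -hRval
    have h2 : ((1 : ℤ) + q * m) * (q * t - q + 2) = 2 := mul_left_cancel₀ hζZ.ne' h1
    have h3 : ((1 : ℤ) + q * m) ∣ 2 := ⟨_, h2.symm⟩
    have h4 := Int.le_of_dvd (by norm_num) h3
    nlinarith
  · push Not at hall
    obtain ⟨x₁, hx₁, hgx₁⟩ := hall
    have hux₁ := hu x₁ hx₁
    -- a general estimate
    have hest : ∀ x, x ∉ orbit H x₀ → g x ≠ 0 →
        (Nat.card (orbit H x) : ℤ) * g x = N - Nat.card (orbit H x) * ζ ∧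
        2 * ((Nat.card (orbit H x) : ℤ) * g x) ≥ N := by
      intro x hx hgx
      have h1 := card_orbit_mul_card_stab (H := H) x
      obtain ⟨n, hn⟩ := hsd x
      have hn2 : 2 ≤ n := by
        by_contra hlt
        have h2 := hspos x
        rw [hn] at h2
        have : n = 1 := by
          rcases Nat.eq_zero_or_pos n with h | h
          · rw [h] at h2; omega
          · omega
        apply hgx
        simp only [hg, hn, this, hu x hx]
        simp
      rw [hn, ← hN] at h1
      have h1Z : (Nat.card (orbit H x) : ℤ) * (ζ * n) = N := by exact_mod_cast h1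
      have hgval : g x = ζ * n - ζ := by
        simp only [hg, hn, hu x hx]; push_cast; ring
      have hn2Z : (2 : ℤ) ≤ n := by exact_mod_cast hn2
      have hoZ : (0 : ℤ) ≤ Nat.card (orbit H x) := by positivity
      refine ⟨by rw [hgval]; linear_combination h1Z, ?_⟩
      rw [hgval, ← h1Z]
      have : (0 : ℤ) ≤ Nat.card (orbit H x) * ζ * (n - 2) := by
        have : (0 : ℤ) ≤ n - 2 := by linarith
        positivity
      nlinarith
    obtain ⟨e1, e2⟩ := hest x₁ hx₁ hgx₁
    -- all other weights vanish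
    have hsplit1 : ∑ x ∈ (Finset.univ.filter (fun x => ¬ x ∈ orbit H x₀)).filter
          (· ∈ orbit H x₁), g x
        + ∑ x ∈ (Finset.univ.filter (fun x => ¬ x ∈ orbit H x₀)).filter
          (fun x => ¬ x ∈ orbit H x₁), g x = R :=
      Finset.sum_filter_add_sum_filter_not _ _ _
    have hsub : ∀ y, y ∉ orbit H x₀ → ∀ z ∈ orbit H y, z ∉ orbit H x₀ := by
      intro y hy z hz hz'
      apply hy
      rw [← orbit_eq_iff] at hz hz' ⊢
      rw [← hz, hz']
    have hf1 : (Finset.univ.filter (fun x => ¬ x ∈ orbit H x₀)).filter (· ∈ orbit H x₁)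
        = Finset.univ.filter (· ∈ orbit H x₁) := by
      ext z
      simp only [Finset.mem_filter, Finset.mem_univ, true_and, and_iff_right_iff_imp]
      exact hsub x₁ hx₁ z
    rw [hf1, sum_orbit g hginv x₁] at hsplit1
    set R' := ∑ x ∈ (Finset.univ.filter (fun x => ¬ x ∈ orbit H x₀)).filter
          (fun x => ¬ x ∈ orbit H x₁), g x with hR'
    have hRN : R < N := by
      rw [hRval]
      have : (0 : ℤ) ≤ (1 + q * m) * ζ * (q - 2) := by
        have : (0 : ℤ) ≤ q - 2 := by linarith
        positivity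
      linarith
    have hR'0 : R' = 0 := by
      apply Finset.sum_eq_zero
      intro x₂ hx₂
      rw [Finset.mem_filter, Finset.mem_filter] at hx₂
      by_contra hgx₂
      obtain ⟨e3, e4⟩ := hest x₂ hx₂.1.2 hgx₂
      have h5 : ∑ x ∈ Finset.univ.filter (· ∈ orbit H x₂), g x ≤ R' := by
        apply Finset.sum_le_sum_of_subset_of_nonneg
        · intro z hz
          simp only [Finset.mem_filter, Finset.mem_univ, true_and] at hz ⊢
          refine ⟨hsub x₂ hx₂.1.2 z hz, ?_⟩
          intro hz'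
          apply hx₂.2
          rw [← orbit_eq_iff] at hz hz' ⊢
          rw [← hz, hz']
        · intro i _ _; exact hgnn i
      rw [sum_orbit g hginv x₂] at h5
      linarith
    rw [hR'0, add_zero, e1, hRval] at hsplit1
    have hC : (ζ : ℤ) * (Nat.card (orbit H x₁)) = ζ * (q * (1 + m * (q - 2))) := by
      linear_combination -hsplit1
    have hC' := mul_left_cancel₀ hζZ.ne' hC
    obtain ⟨n, hn⟩ := hsd x₁
    have h1 := card_orbit_mul_card_stab (H := H) x₁
    rw [hn, ← hN, ← hos] at h1
    have h1Z : (Nat.card (orbit H x₁) : ℤ) * (ζ * n) = (1 + q * m) * (ζ * q * t) := by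
      exact_mod_cast h1
    rw [hC'] at h1Z
    have h2 : ((ζ : ℤ) * q) * ((1 + m * (q - 2)) * n) = (ζ * q) * ((1 + q * m) * t) := by
      linear_combination h1Z
    have hζq : ((ζ : ℤ) * q) ≠ 0 := mul_ne_zero hζZ.ne' (by linarith)
    have h3 := mul_left_cancel₀ hζq h2
    -- E | 2 m t
    have h4 : ((1 : ℤ) + m * (q - 2)) ∣ m * (2 * t) :=
      ⟨n - t, by linear_combination -h3⟩
    have hcop : IsCoprime ((1 : ℤ) + m * (q - 2)) m := ⟨1, -(q - 2), by ring⟩
    have h5 := hcop.dvd_of_dvd_mul_left h4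
    have h6 := Int.le_of_dvd (by positivity) h5
    have h7 : (q : ℤ) - 1 ≤ 2 * t := by nlinarith
    have h8 : ((q - 1 : ℕ) : ℤ) ≤ ((2 * t : ℕ) : ℤ) := by
      rw [hq1]; push_cast; exact h7
    exact_mod_cast h8

end Abstract

end Fermat.Agent.TWGroup
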