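import Fermat.Agent.TWGroup.P1
import Fermat.Agent.TWGroup.Count
import Mathlib.FieldTheory.Finite.Basic

/-!
# The torus of a subgroup of `SL₂(k)` with unipotent elements
-/

namespace Fermat.Agent.TWGroup

open Matrix OnePoint Matrix.GeneralLinearGroup MulAction

variable {k : Type*} [Field k] [DecidableEq k]

/-- the unipotent elements of `H` fixing `∞`. -/
def rootGroup (H : Subgroup (GL (Fin 2) k)) : AddSubgroup k where
  carrier := {v | upperRightHom v ∈ H}
  zero_mem' := by
    show upperRightHom 0 ∈ H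
    rw [AddChar.map_zero_eq_one]; exact H.one_mem
  add_mem' := by
    intro a b ha hb
    show upperRightHom (a + b) ∈ H
    rw [AddChar.map_add_eq_mul]
    exact H.mul_mem ha hb
  neg_mem' := by
    intro a ha
    show upperRightHom (-a) ∈ H
    rw [AddChar.map_neg_eq_inv]
    exact H.inv_mem ha

omit [DecidableEq k] in
lemma mem_rootGroup {H : Subgroup (GL (Fin 2) k)} {v : k} :
    v ∈ rootGroup H ↔ upperRightHom v ∈ H := Iff.rfl

lemma upper_fixed {w : k} (hw : w ≠ 0) {x : OnePoint k} (hx : upperRightHom w • x = x) :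
    x = ∞ := by
  cases x with
  | infty => rfl
  | coe c =>
    rw [upper_smul_coe, coe_eq_coe] at hx
    exact absurd (by simpa using hx) hw

omit [DecidableEq k] in
lemma upper_pow (w : k) (n : ℕ) : (upperRightHom w) ^ n = upperRightHom (n • w) := by
  rw [AddChar.map_nsmul_eq_pow]

section Finite

variable [Fintype k]

theorem exists_smul_infty_of_parabolic (H : Subgroup (GL (Fin 2) k)) {v₀ : k} (hv₀ : v₀ ≠ 0)
    (hv₀H : upperRightHom v₀ ∈ H) {h : GL (Fin 2) k} (hh : h ∈ H) (hpar : h.IsParabolic)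
    {x : OnePoint k} (hx : h • x = x) : ∃ g ∈ H, g • (∞ : OnePoint k) = x := by
  obtain ⟨p, hp⟩ := CharP.exists k
  have hpp : Fact p.Prime := ⟨CharP.char_is_prime k p⟩
  have hfin : Finite H := inferInstance
  -- unipotents generate p-groups
  have hpg : ∀ (g : H), g ^ p = 1 → IsPGroup p (Subgroup.zpowers g) := by
    intro g hg
    have h1 : orderOf g ∣ p := orderOf_dvd_of_pow_eq_one hg
    rcases (Nat.dvd_prime hpp.out).mp h1 with h2 | h2
    · exact IsPGroup.of_card (n := 0) (by rw [Nat.card_zpowers, h2, pow_zero])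
    · exact IsPGroup.of_card (n := 1) (by rw [Nat.card_zpowers, h2, pow_one])
  obtain ⟨Q, hQ⟩ := (hpg ⟨upperRightHom v₀, hv₀H⟩ (by
    apply Subtype.ext
    show (upperRightHom v₀) ^ p = 1
    rw [upper_pow]
    simp)).exists_le_sylow
  have hcard : ¬ p ∣ Nat.card (OnePoint k) := by
    have h1 : Nat.card (OnePoint k) = Fintype.card k + 1 := by
      rw [Nat.card_eq_fintype_card]
      exact Fintype.card_option
    rw [h1]
    intro h2
    have h3 : p ∣ Fintype.card k := by
      rw [← CharP.cast_eq_zero_iff k p]; simp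
    have h4 := (Nat.dvd_add_right h3).mp h2
    exact hpp.out.one_lt.ne' (Nat.dvd_one.mp h4)
  obtain ⟨y, hy⟩ := IsPGroup.nonempty_fixed_point_of_prime_not_dvd_card Q.2 (OnePoint k) hcard
  have hyinf : y = ∞ := by
    have h1 := hy ⟨⟨upperRightHom v₀, hv₀H⟩, hQ (Subgroup.mem_zpowers _)⟩
    exact upper_fixed hv₀ h1
  obtain ⟨γ, w, hw, hγ, hpow⟩ := parabolic_pow h hpar hx
  have hh' : h ^ (Fintype.card k - 1) ∈ H := H.pow_mem hh _
  obtain ⟨Q', hQ'⟩ := (hpg ⟨h ^ (Fintype.card k - 1), hh'⟩ (by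
    apply Subtype.ext
    show (h ^ (Fintype.card k - 1)) ^ p = 1
    rw [hpow, conj_pow, upper_pow]
    simp)).exists_le_sylow
  obtain ⟨g, hg⟩ := MulAction.exists_smul_eq H Q Q'
  refine ⟨g, g.2, ?_⟩
  have hmem : (⟨h ^ (Fintype.card k - 1), hh'⟩ : H) ∈ (Q' : Subgroup H) :=
    hQ' (Subgroup.mem_zpowers _)
  rw [← hg, Sylow.coe_subgroup_smul, Subgroup.mem_smul_pointwise_iff_exists] at hmem
  obtain ⟨s, hs, hgs⟩ := hmem
  have hs' := hy ⟨s, hs⟩
  rw [hyinf] at hs'
  have hs'' : s.val • (∞ : OnePoint k) = ∞ := hs'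
  rw [MulAut.smul_def, MulAut.conj_apply] at hgs
  have hgs' : g.val * s.val * g.val⁻¹ = γ * upperRightHom w * γ⁻¹ := by
    rw [← hpow]; exact congrArg Subtype.val hgs
  have h1 : (g.val * s.val * g.val⁻¹) • (g.val • (∞ : OnePoint k)) = g.val • (∞ : OnePoint k) := by
    rw [mul_smul, inv_smul_smul, mul_smul, hs'']
  rw [hgs', mul_smul, mul_smul] at h1
  have h2 : upperRightHom w • (γ⁻¹ • g.val • (∞ : OnePoint k)) = γ⁻¹ • g.val • (∞ : OnePoint k) := by
    rw [eq_inv_smul_iff]; exact h1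
  have h3 := upper_fixed hw h2
  rw [inv_smul_eq_iff, hγ] at h3
  exact h3

/-- scalar elements of `H`. -/
def scalars (H : Subgroup (GL (Fin 2) k)) : Subgroup H where
  carrier := {h | ∃ a : k, h.1.val = Matrix.scalar (Fin 2) a}
  one_mem' := ⟨1, by simp⟩
  mul_mem' := by
    rintro x y ⟨a, ha⟩ ⟨b, hb⟩
    refine ⟨a * b, ?_⟩
    show (x.1 * y.1).val = _
    rw [Units.val_mul, ha, hb, map_mul]
  inv_mem' := by
    rintro x ⟨a, ha⟩
    have ha0 : a ≠ 0 := by
      rintro rfl
      apply x.1.det_ne_zero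
      rw [ha]; simp
    refine ⟨a⁻¹, ?_⟩
    show (x.1⁻¹).val = _
    have h1 : x.1.val * Matrix.scalar (Fin 2) a⁻¹ = 1 := by
      rw [ha, ← map_mul, mul_inv_cancel₀ ha0, map_one]
    calc (x.1⁻¹).val = (x.1⁻¹).val * (x.1.val * Matrix.scalar (Fin 2) a⁻¹) := by rw [h1, mul_one]
      _ = _ := by rw [← mul_assoc, inv_mul_val, one_mul]

omit [Fintype k] in
lemma scalar_smul {g : GL (Fin 2) k} {a : k} (hg : g.val = Matrix.scalar (Fin 2) a)
    (x : OnePoint k) : g • x = x := by
  have ha0 : a ≠ 0 := by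
    rintro rfl
    apply g.det_ne_zero
    rw [hg]; simp
  cases x with
  | infty => rw [smul_infty_eq_self_iff, hg]; simp
  | coe c => rw [smul_some_eq_ite, hg]; simp [ha0]

/-- the character `a/d` on the stabilizer of `∞`. -/
noncomputable def chiHom₀ (H : Subgroup (GL (Fin 2) k)) :
    stabilizer H (∞ : OnePoint k) →* k where
  toFun h := h.1.1 0 0 / h.1.1 1 1
  map_one' := by simp
  map_mul' a b := by
    have ha : a.1.1 1 0 = 0 := smul_infty_eq_self_iff.mp a.2
    have hb : b.1.1 1 0 = 0 := smul_infty_eq_self_iff.mp b.2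
    have h1 : (a * b).1.1 0 0 = a.1.1 0 0 * b.1.1 0 0 := by
      show (a.1.1.val * b.1.1.val) 0 0 = _
      rw [mul_apply_two, hb]; ring
    have h2 : (a * b).1.1 1 1 = a.1.1 1 1 * b.1.1 1 1 := by
      show (a.1.1.val * b.1.1.val) 1 1 = _
      rw [mul_apply_two, ha]; ring
    rw [h1, h2, mul_div_mul_comm]

noncomputable def chiHom (H : Subgroup (GL (Fin 2) k)) :
    stabilizer H (∞ : OnePoint k) →* kˣ := (chiHom₀ H).toHomUnits

omit [Fintype k] in
lemma chiHom_val (H : Subgroup (GL (Fin 2) k)) (h : stabilizer H (∞ : OnePoint k)) :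
    (chiHom H h : k) = h.1.1 0 0 / h.1.1 1 1 := rfl

omit [DecidableEq k] [Fintype k] in
lemma diag_ne_zero {g : GL (Fin 2) k} (hg : g 1 0 = 0) : g 0 0 ≠ 0 ∧ g 1 1 ≠ 0 := by
  have hdet := g.det_ne_zero
  rw [det_fin_two, hg, mul_zero, sub_zero] at hdet
  exact ⟨left_ne_zero_of_mul hdet, right_ne_zero_of_mul hdet⟩

lemma card_ker_chi (H : Subgroup (GL (Fin 2) k)) :
    Nat.card (chiHom H).ker = Nat.card (scalars H) * Nat.card (rootGroup H) := by
  rw [← Nat.card_prod]
  symm
  -- the multiplication map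
  have hstab : ∀ (z : scalars H) (v : rootGroup H),
      z.1.1 * upperRightHom v.1 ∈ H := fun z v => H.mul_mem z.1.2 v.2
  have hentries : ∀ (z : scalars H) (v : rootGroup H), ∃ a : k, z.1.1.val = Matrix.scalar (Fin 2) a ∧
      (z.1.1 * upperRightHom v.1).val = !![a, a * v.1; 0, a] := by
    rintro ⟨z, a, ha⟩ v
    refine ⟨a, ha, ?_⟩
    rw [Units.val_mul, ha]
    ext i j; fin_cases i <;> fin_cases j <;> simp [mul_apply_two]
  let f : scalars H × rootGroup H → (chiHom H).ker := fun zv =>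
    ⟨⟨⟨zv.1.1.1 * upperRightHom zv.2.1, hstab zv.1 zv.2⟩, by
      show (zv.1.1.1 * upperRightHom zv.2.1) • (∞ : OnePoint k) = ∞
      obtain ⟨a, _, h⟩ := hentries zv.1 zv.2
      rw [smul_infty_eq_self_iff, h]; simp⟩, by
      rw [MonoidHom.mem_ker]
      apply Units.ext
      rw [chiHom_val]
      obtain ⟨a, ha, h⟩ := hentries zv.1 zv.2
      have ha0 : a ≠ 0 := by
        rintro rfl
        apply zv.1.1.1.det_ne_zero
        rw [ha]; simp
      show (zv.1.1.1 * upperRightHom zv.2.1).val 0 0 / (zv.1.1.1 * upperRightHom zv.2.1).val 1 1 = 1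
      rw [h]; simp [ha0]⟩
  refine Nat.card_congr (Equiv.ofBijective f ⟨?_, ?_⟩)
  · rintro ⟨z, v⟩ ⟨z', v'⟩ h
    have h' : z.1.1 * upperRightHom v.1 = z'.1.1 * upperRightHom v'.1 :=
      congrArg (fun x => x.1.1.1) h
    obtain ⟨a, ha, h1⟩ := hentries z v
    obtain ⟨a', ha', h2⟩ := hentries z' v'
    have ha0 : a ≠ 0 := by
      rintro rfl
      apply z.1.1.det_ne_zero
      rw [ha]; simp
    rw [h', h2] at h1
    have e0 : a' = a := by simpa using congrFun (congrFun h1 0) 0
    have e1 : a' * v'.1 = a * v.1 := by simpa using congrFun (congrFun h1 0) 1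
    rw [e0] at e1
    have e2 := mul_left_cancel₀ ha0 e1
    have e3 : z = z' := by
      apply Subtype.ext; apply Subtype.ext; apply Units.ext
      rw [ha, ha', e0]
    rw [e3, Prod.mk.injEq]
    exact ⟨rfl, Subtype.ext e2.symm⟩
  · rintro ⟨h, hker⟩
    have h10 : h.1.1 1 0 = 0 := smul_infty_eq_self_iff.mp h.2
    obtain ⟨n0, n1⟩ := diag_ne_zero h10
    have hd : h.1.1 0 0 = h.1.1 1 1 := by
      rw [MonoidHom.mem_ker] at hker
      have h1 := congrArg Units.val hker
      rw [chiHom_val, Units.val_one, div_eq_one_iff_eq n1] at h1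
      exact h1
    set a := h.1.1 0 0 with ha
    set v := h.1.1 0 1 / a with hv
    have hform : h.1.1.val = !![a, a * v; 0, a] := by
      ext i j; fin_cases i <;> fin_cases j
      · simp [ha]
      · simp [hv]; field_simp
      · simp [h10]
      · simp [← hd]
    have hpow : ∀ n : ℕ, h.1.1.val ^ n = !![a ^ n, n * a ^ n * v; 0, a ^ n] := by
      intro n
      induction n with
      | zero => ext i j; fin_cases i <;> fin_cases j <;> simp
      | succ n ih =>
        rw [pow_succ, ih, hform]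
        ext i j; fin_cases i <;> fin_cases j <;> simp [mul_apply_two] <;> ring
    have hz : (h.1 ^ (Fintype.card k)) ∈ scalars H := by
      refine ⟨a, ?_⟩
      show ((h.1.1) ^ (Fintype.card k)).val = _
      rw [Units.val_pow_eq_pow_val, hpow, FiniteField.pow_card]
      ext i j; fin_cases i <;> fin_cases j <;> simp
    have hzval : ((h.1.1) ^ (Fintype.card k)).val = Matrix.scalar (Fin 2) a := by
      rw [Units.val_pow_eq_pow_val, hpow, FiniteField.pow_card]
      ext i j; fin_cases i <;> fin_cases j <;> simp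
    have hmul : h.1.1 = (h.1.1) ^ (Fintype.card k) * upperRightHom v := by
      apply Units.ext
      rw [Units.val_mul, hzval, hform]
      ext i j; fin_cases i <;> fin_cases j <;> simp [mul_apply_two]
    have hvH : upperRightHom v ∈ H := by
      have h1 : upperRightHom v = ((h.1.1) ^ (Fintype.card k))⁻¹ * h.1.1 := by
        rw [eq_inv_mul_iff_mul_eq]; exact hmul.symm
      rw [h1]
      exact H.mul_mem (H.inv_mem (H.pow_mem h.1.2 _)) h.1.2
    refine ⟨(⟨_, hz⟩, ⟨v, hvH⟩), ?_⟩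
    apply Subtype.ext; apply Subtype.ext; apply Subtype.ext
    exact hmul.symm

/-- the torus of `H`. -/
noncomputable def torus (H : Subgroup (GL (Fin 2) k)) : Subgroup kˣ := (chiHom H).range

omit [Fintype k] in
lemma mem_torus {H : Subgroup (GL (Fin 2) k)} {c : kˣ} :
    c ∈ torus H ↔ ∃ h ∈ H, h 1 0 = 0 ∧ h 0 0 = c * h 1 1 := by
  constructor
  · rintro ⟨h, rfl⟩
    have h10 : h.1.1 1 0 = 0 := smul_infty_eq_self_iff.mp h.2
    refine ⟨h.1.1, h.1.2, h10, ?_⟩
    rw [chiHom_val, div_mul_cancel₀ _ (diag_ne_zero h10).2]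
  · rintro ⟨h, hH, h10, hc⟩
    refine ⟨⟨⟨h, hH⟩, smul_infty_eq_self_iff.mpr h10⟩, ?_⟩
    apply Units.ext
    rw [chiHom_val]
    show h 0 0 / h 1 1 = c
    rw [hc, mul_div_cancel_right₀ _ (diag_ne_zero h10).2]

lemma card_stab_infty (H : Subgroup (GL (Fin 2) k)) :
    Nat.card (stabilizer H (∞ : OnePoint k)) =
      Nat.card (scalars H) * Nat.card (rootGroup H) * Nat.card (torus H) := by
  rw [← card_ker_chi, torus, ← Subgroup.index_ker, Subgroup.card_mul_index]

omit [DecidableEq k] [Fintype k] in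
lemma conj_upper {b : GL (Fin 2) k} (h10 : b 1 0 = 0) (v : k) :
    b * upperRightHom v * b⁻¹ = upperRightHom (b 0 0 / b 1 1 * v) := by
  rw [mul_inv_eq_iff_eq_mul]
  apply Units.ext
  obtain ⟨h0, h1⟩ := diag_ne_zero h10
  rw [Units.val_mul, Units.val_mul]
  ext i j; fin_cases i <;> fin_cases j
  · simp [mul_apply_two, h10]
  · simp [mul_apply_two]; field_simp; ring
  · simp [mul_apply_two, h10]
  · simp [mul_apply_two, h10]

omit [DecidableEq k] [Fintype k] in
lemma conj_mem_rootGroup {H : Subgroup (GL (Fin 2) k)} {b : GL (Fin 2) k} (hb : b ∈ H)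
    (h10 : b 1 0 = 0) {v : k} (hv : v ∈ rootGroup H) : b 0 0 / b 1 1 * v ∈ rootGroup H := by
  rw [mem_rootGroup, ← conj_upper h10]
  exact H.mul_mem (H.mul_mem hb hv) (H.inv_mem hb)

omit [Fintype k] in
lemma torus_mul_mem {H : Subgroup (GL (Fin 2) k)} {c : kˣ} (hc : c ∈ torus H) {v : k}
    (hv : v ∈ rootGroup H) : c * v ∈ rootGroup H := by
  rw [mem_torus] at hc
  obtain ⟨b, hb, h10, h⟩ := hc
  have := conj_mem_rootGroup hb h10 hv
  rwa [h, mul_div_cancel_right₀ _ (diag_ne_zero h10).2] at this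

omit [DecidableEq k] [Fintype k] in
lemma isParabolic_of_not_scalar {g : GL (Fin 2) k} (h10 : g 1 0 = 0) (hd : g 0 0 = g 1 1)
    (hns : ¬ ∃ a : k, g.val = Matrix.scalar (Fin 2) a) : g.IsParabolic := by
  rw [GeneralLinearGroup.isParabolic_iff_of_upperTriangular h10]
  refine ⟨hd, fun h01 => hns ⟨g 0 0, ?_⟩⟩
  ext i j; fin_cases i <;> fin_cases j <;> simp [h10, hd, h01]

omit [DecidableEq k] [Fintype k] in
lemma not_scalar_of_isParabolic {g : GL (Fin 2) k} (h : g.IsParabolic) :
    ¬ ∃ a : k, g.val = Matrix.scalar (Fin 2) a := by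
  rintro ⟨a, ha⟩
  exact h.1 ⟨a, ha.symm⟩

lemma card_par_infty (H : Subgroup (GL (Fin 2) k)) :
    Nat.card {h : H // h.1.IsParabolic ∧ h.1 • (∞ : OnePoint k) = ∞} + Nat.card (scalars H) =
      Nat.card (scalars H) * Nat.card (rootGroup H) := by
  classical
  rw [← card_ker_chi]
  have e1 : Nat.card (chiHom H).ker = Nat.card {x : (chiHom H).ker // x.1.1 ∈ scalars H} +
      Nat.card {x : (chiHom H).ker // ¬ x.1.1 ∈ scalars H} := by
    rw [← Nat.card_sum]
    exact Nat.card_congr (Equiv.sumCompl _).symm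
  rw [e1, add_comm]
  have hk : ∀ h : H, h.1 • (∞ : OnePoint k) = ∞ → h.1 0 0 = h.1 1 1 → ∃ hs : h • (∞ : OnePoint k) = ∞,
      (⟨h, hs⟩ : stabilizer H (∞ : OnePoint k)) ∈ (chiHom H).ker := by
    intro h hs hd
    refine ⟨hs, ?_⟩
    rw [MonoidHom.mem_ker]
    apply Units.ext
    rw [chiHom_val]
    show h.1 0 0 / h.1 1 1 = 1
    rw [hd, div_self (diag_ne_zero (smul_infty_eq_self_iff.mp hs)).2]
  have hk' : ∀ x : (chiHom H).ker, x.1.1.1 0 0 = x.1.1.1 1 1 := by
    intro x
    have h1 := congrArg Units.val (MonoidHom.mem_ker.mp x.2)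
    rw [chiHom_val, Units.val_one,
      div_eq_one_iff_eq (diag_ne_zero (smul_infty_eq_self_iff.mp x.1.2)).2] at h1
    exact h1
  congr 1
  · refine Nat.card_congr (Equiv.ofBijective
      (fun z : scalars H => (⟨⟨⟨z.1, by
        obtain ⟨a, ha⟩ := z.2
        exact scalar_smul ha _⟩, by
          obtain ⟨a, ha⟩ := z.2
          exact (hk z.1 (scalar_smul ha _) (by rw [ha]; simp)).2⟩, z.2⟩ :
            {x : (chiHom H).ker // x.1.1 ∈ scalars H})) ⟨?_, ?_⟩)
    · intro z z' h
      exact Subtype.ext (congrArg (fun x => x.1.1.1) h)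
    · rintro ⟨x, hx⟩
      exact ⟨⟨x.1.1, hx⟩, rfl⟩
  · refine Nat.card_congr (Equiv.ofBijective
      (fun z : {h : H // h.1.IsParabolic ∧ h.1 • (∞ : OnePoint k) = ∞} =>
        (⟨⟨⟨z.1, z.2.2⟩, (hk z.1 z.2.2 (by
          have h10 := smul_infty_eq_self_iff.mp z.2.2
          exact ((GeneralLinearGroup.isParabolic_iff_of_upperTriangular h10).mp z.2.1).1)).2⟩,
          fun h => not_scalar_of_isParabolic z.2.1 h⟩ :
            {x : (chiHom H).ker // ¬ x.1.1 ∈ scalars H})) ⟨?_, ?_⟩)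
    · intro z z' h
      exact Subtype.ext (congrArg (fun x => x.1.1.1) h)
    · rintro ⟨x, hx⟩
      refine ⟨⟨x.1.1, isParabolic_of_not_scalar (smul_infty_eq_self_iff.mp x.1.2) (hk' x) hx,
        x.1.2⟩, rfl⟩

omit [Fintype k] in
lemma card_par_smul (H : Subgroup (GL (Fin 2) k)) (g : H) (x : OnePoint k) :
    Nat.card {h : H // h.1.IsParabolic ∧ h.1 • (g • x) = g • x} =
      Nat.card {h : H // h.1.IsParabolic ∧ h.1 • x = x} := by
  refine Nat.card_congr (Equiv.ofBijective (fun z : {h : H // h.1.IsParabolic ∧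
    h.1 • (g • x) = g • x} => (⟨g⁻¹ * z.1 * g, ?_, ?_⟩ :
      {h : H // h.1.IsParabolic ∧ h.1 • x = x})) ⟨?_, ?_⟩)
  · show (g.1⁻¹ * z.1.1 * g.1).IsParabolic
    exact (isParabolic_conj_iff' _ _).mpr z.2.1
  · show (g.1⁻¹ * z.1.1 * g.1) • x = x
    have := z.2.2
    rw [mul_smul, mul_smul, inv_smul_eq_iff]
    exact this
  · intro z z' h
    have h1 : g⁻¹ * z.1 * g = g⁻¹ * z'.1 * g := congrArg Subtype.val h
    apply Subtype.ext
    simpa using h1
  · rintro ⟨y, hy1, hy2⟩
    refine ⟨⟨g * y * g⁻¹, ?_, ?_⟩, ?_⟩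
    · show (g.1 * y.1 * g.1⁻¹).IsParabolic
      exact (isParabolic_conj_iff _ _).mpr hy1
    · show (g.1 * y.1 * g.1⁻¹) • (g.1 • x) = g.1 • x
      rw [mul_smul, inv_smul_smul, mul_smul, hy2]
    · apply Subtype.ext
      show g⁻¹ * (g * y * g⁻¹) * g = y
      group

/-- the main double counting identity -/
lemma double_count (H : Subgroup (GL (Fin 2) k))
    (hsplit : ∀ h ∈ H, ∃ α : k, α ^ 2 - h.val.trace * α + h.val.det = 0) :
    ∑ x : OnePoint k, (Nat.card (stabilizer H x) +
        Nat.card {h : H // h.1.IsParabolic ∧ h.1 • x = x}) + 2 * Nat.card (scalars H)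
      = 2 * Nat.card H + Nat.card (scalars H) * Fintype.card (OnePoint k) := by
  classical
  have hfH : Fintype H := Fintype.ofFinite _
  have e1 : ∀ x : OnePoint k, Nat.card (stabilizer H x) = ∑ h : H, if h.1 • x = x then 1 else 0 := by
    intro x
    rw [Nat.card_eq_fintype_card, ← Finset.card_filter, ← Fintype.card_subtype]
    rfl
  have e2 : ∀ x : OnePoint k, Nat.card {h : H // h.1.IsParabolic ∧ h.1 • x = x} =
      ∑ h : H, if (h.1.IsParabolic ∧ h.1 • x = x) then 1 else 0 := by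
    intro x
    rw [Nat.card_eq_fintype_card, ← Finset.card_filter, ← Fintype.card_subtype]
  have e3 : ∀ h : H, ∑ x : OnePoint k, ((if h.1 • x = x then 1 else 0) +
      (if (h.1.IsParabolic ∧ h.1 • x = x) then 1 else 0)) =
      if h ∈ scalars H then Fintype.card (OnePoint k) else 2 := by
    intro h
    rw [Finset.sum_add_distrib]
    split_ifs with hs
    · obtain ⟨a, ha⟩ := hs
      have h1 : ∀ x : OnePoint k, h.1 • x = x := fun x => scalar_smul ha x
      have h2 : ¬ h.1.IsParabolic := fun hp => not_scalar_of_isParabolic hp ⟨a, ha⟩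
      simp [h1, h2]
    · obtain ⟨α, hα⟩ := hsplit h.1 h.2
      obtain ⟨x₁, hx₁⟩ := exists_fixed h.1 α hα
      have hns : h.1.val ∉ Set.range (Matrix.scalar (Fin 2)) := by
        rintro ⟨a, ha⟩
        exact hs ⟨a, ha.symm⟩
      rcases fixed_of_fixed h.1 hns hx₁ with ⟨hp, hx⟩ | ⟨hnp, x₂, hx₂, hx⟩
      · simp only [hp, hx, true_and]
        simp
      · simp only [hnp, hx, false_and, if_false, Finset.sum_const_zero, add_zero]
        rw [← Finset.card_filter, show Finset.univ.filter (fun x => x = x₁ ∨ x = x₂) = {x₁, x₂} by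
          ext x; simp]
        exact Finset.card_pair hx₂.symm
  have e4 : ∑ x : OnePoint k, (Nat.card (stabilizer H x) +
        Nat.card {h : H // h.1.IsParabolic ∧ h.1 • x = x}) =
      ∑ h : H, if h ∈ scalars H then Fintype.card (OnePoint k) else 2 := by
    rw [← Finset.sum_congr rfl (fun h _ => e3 h), Finset.sum_comm]
    apply Finset.sum_congr rfl
    intro x _
    rw [e1, e2, Finset.sum_add_distrib]
  rw [e4, Finset.sum_ite, Finset.sum_const, Finset.sum_const]
  have e5 : (Finset.univ.filter (fun h : H => h ∈ scalars H)).card = Nat.card (scalars H) := by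
    rw [Nat.card_eq_fintype_card, ← Fintype.card_subtype]
  have e6 : (Finset.univ.filter (fun h : H => h ∈ scalars H)).card +
      (Finset.univ.filter (fun h : H => ¬ h ∈ scalars H)).card = Nat.card H := by
    rw [Finset.card_filter_add_card_filter_not, Nat.card_eq_fintype_card, Finset.card_univ]
  rw [smul_eq_mul, smul_eq_mul, ← e6, ← e5]
  ring

/-- the orbit of `∞`. -/
lemma card_orbit_infty (H : Subgroup (GL (Fin 2) k)) (hns : ∃ h ∈ H, h • (∞ : OnePoint k) ≠ ∞) :
    ∃ m : ℕ, 1 ≤ m ∧ Nat.card (orbit H (∞ : OnePoint k)) = 1 + Nat.card (rootGroup H) * m := by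
  classical
  set V := rootGroup H with hV
  set Y : Set k := {c | (c : OnePoint k) ∈ orbit H (∞ : OnePoint k)} with hY
  have hYne : Y.Nonempty := by
    obtain ⟨h, hh, hne⟩ := hns
    rcases OnePoint.ne_infty_iff_exists.mp hne with ⟨c, hc⟩
    refine ⟨c, ⟨⟨h, hh⟩, ?_⟩⟩
    exact hc.symm
  have hYV : ∀ c ∈ Y, ∀ v ∈ V, c + v ∈ Y := by
    rintro c ⟨h, hc⟩ v hv
    refine ⟨⟨upperRightHom v, hv⟩ * h, ?_⟩
    show (upperRightHom v * h.1) • (∞ : OnePoint k) = _
    have hc' : h.1 • (∞ : OnePoint k) = c := hc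
    rw [mul_smul, hc', upper_smul_coe]
  have hpre : (QuotientAddGroup.mk : k → k ⧸ V) ⁻¹' ((QuotientAddGroup.mk : k → k ⧸ V) '' Y) = Y := by
    ext c
    constructor
    · rintro ⟨c', hc', he⟩
      rw [QuotientAddGroup.eq] at he
      have := hYV c' hc' _ he
      simpa using this
    · intro hc
      exact ⟨c, hc, rfl⟩
  have hcardY : Nat.card Y = Nat.card V * Nat.card ((QuotientAddGroup.mk : k → k ⧸ V) '' Y) := by
    rw [← Nat.card_prod]
    have := Nat.card_congr (QuotientAddGroup.preimageMkEquivAddSubgroupProdSet V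
      ((QuotientAddGroup.mk : k → k ⧸ V) '' Y))
    rw [hpre] at this
    exact this
  refine ⟨Nat.card ((QuotientAddGroup.mk : k → k ⧸ V) '' Y), ?_, ?_⟩
  · have : Nonempty ((QuotientAddGroup.mk : k → k ⧸ V) '' Y) := by
      obtain ⟨c, hc⟩ := hYne
      exact ⟨⟨_, c, hc, rfl⟩⟩
    exact Nat.card_pos
  · rw [← hcardY]
    have h1 : orbit H (∞ : OnePoint k) = insert ∞ ((fun c : k => (c : OnePoint k)) '' Y) := by
      ext x
      constructor
      · intro hx
        cases x with
        | infty => exact Or.inl rfl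
        | coe c => exact Or.inr ⟨c, hx, rfl⟩
      · rintro (rfl | ⟨c, hc, rfl⟩)
        · exact mem_orbit_self _
        · exact hc
    rw [Nat.card_coe_set_eq, h1, Set.ncard_insert_of_notMem, Set.ncard_image_of_injective,
      Nat.card_coe_set_eq, add_comm]
    · exact OnePoint.coe_injective
    · rintro ⟨c, _, hc⟩
      exact coe_ne_infty c hc

/-- **Torus bound.** -/
theorem torus_bound (H : Subgroup (GL (Fin 2) k)) (h2 : (2 : k) ≠ 0)
    (hsplit : ∀ h ∈ H, ∃ α : k, α ^ 2 - h.val.trace * α + h.val.det = 0)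
    (hns : ∃ h ∈ H, h • (∞ : OnePoint k) ≠ ∞) {v₀ : k} (hv₀ : v₀ ≠ 0)
    (hv₀H : v₀ ∈ rootGroup H) :
    Nat.card (rootGroup H) - 1 ≤ 2 * Nat.card (torus H) := by
  classical
  obtain ⟨m, hm1, hm⟩ := card_orbit_infty H hns
  have hζ : 0 < Nat.card (scalars H) := Nat.card_pos
  have hq : 3 ≤ Nat.card (rootGroup H) := by
    have h1 : ({0, v₀, -v₀} : Finset k).card = 3 := by
      rw [Finset.card_eq_three]
      refine ⟨0, v₀, -v₀, hv₀.symm, (neg_ne_zero.mpr hv₀).symm, ?_, rfl⟩
      intro h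
      have : (2 : k) * v₀ = 0 := by linear_combination h
      rcases mul_eq_zero.mp this with h | h
      · exact h2 h
      · exact hv₀ h
    have h3 : Nat.card (rootGroup H) = (rootGroup H : Set k).ncard := rfl
    rw [h3, ← h1, ← Set.ncard_coe_finset]
    apply Set.ncard_le_ncard _ (Set.toFinite _)
    intro x hx
    simp only [Finset.coe_insert, Finset.coe_singleton, Set.mem_insert_iff,
      Set.mem_singleton_iff] at hx
    rcases hx with rfl | rfl | rfl
    · exact (rootGroup H).zero_mem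
    · exact hv₀H
    · exact (rootGroup H).neg_mem hv₀H
  have hpar := card_par_infty H
  refine abstract_count (H := H) (∞ : OnePoint k) (Nat.card (scalars H)) (Nat.card (rootGroup H))
    (Nat.card (torus H)) m (fun x => Nat.card {h : H // h.1.IsParabolic ∧ h.1 • x = x}) hζ
    ?_ ?_ (card_stab_infty H) ?_ (double_count H hsplit) hm hm1 hq
  · intro x hx
    have : IsEmpty {h : H // h.1.IsParabolic ∧ h.1 • x = x} := by
      constructor
      rintro ⟨h, hp, hhx⟩
      obtain ⟨g, hg, hgx⟩ := exists_smul_infty_of_parabolic H hv₀ hv₀H h.2 hp hhx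
      exact hx ⟨⟨g, hg⟩, hgx⟩
    exact Nat.card_of_isEmpty
  · rintro x ⟨g, rfl⟩
    show Nat.card {h : H // h.1.IsParabolic ∧ h.1 • (g • (∞ : OnePoint k)) = g • ∞} = _
    rw [card_par_smul, Nat.mul_sub, mul_one]
    omega
  · intro x
    have : scalars H ≤ stabilizer H x := by
      rintro h ⟨a, ha⟩
      exact scalar_smul ha x
    exact Subgroup.card_dvd_of_le this

/-- additive maps commuting with the torus are linear. -/
theorem exists_linear (H : Subgroup (GL (Fin 2) k)) (h2 : (2 : k) ≠ 0)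
    (hsplit : ∀ h ∈ H, ∃ α : k, α ^ 2 - h.val.trace * α + h.val.det = 0)
    (hns : ∃ h ∈ H, h • (∞ : OnePoint k) ≠ ∞) {v₀ : k} (hv₀ : v₀ ≠ 0)
    (hv₀H : v₀ ∈ rootGroup H) (ε : k → k)
    (hadd : ∀ v ∈ rootGroup H, ∀ w ∈ rootGroup H, ε (v + w) = ε v + ε w)
    (hT : ∀ c ∈ torus H, ∀ v ∈ rootGroup H, ε (c * v) = c * ε v) :
    ∃ κ : k, ∀ v ∈ rootGroup H, ε v = κ * v := by
  classical
  have hb := torus_bound H h2 hsplit hns hv₀ hv₀H
  have hε0 : ε 0 = 0 := by
    have := hadd 0 (rootGroup H).zero_mem 0 (rootGroup H).zero_mem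
    rw [add_zero] at this
    exact left_eq_add.mp this
  let F : AddSubgroup k :=
    { carrier := {x | ∀ v ∈ rootGroup H, x * v ∈ rootGroup H ∧ ε (x * v) = x * ε v}
      zero_mem' := by
        intro v hv
        rw [zero_mul, zero_mul]
        exact ⟨(rootGroup H).zero_mem, hε0⟩
      add_mem' := by
        intro x y hx hy v hv
        obtain ⟨h1, h1'⟩ := hx v hv
        obtain ⟨h3, h3'⟩ := hy v hv
        refine ⟨?_, ?_⟩
        · rw [add_mul]; exact (rootGroup H).add_mem h1 h3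
        · rw [add_mul, hadd _ h1 _ h3, h1', h3']; ring
      neg_mem' := by
        intro x hx v hv
        obtain ⟨h1, h1'⟩ := hx v hv
        refine ⟨?_, ?_⟩
        · rw [neg_mul]; exact (rootGroup H).neg_mem h1
        · have h3 := hadd _ h1 _ ((rootGroup H).neg_mem h1)
          rw [add_neg_cancel, hε0, h1'] at h3
          rw [neg_mul]
          linear_combination -h3 }
  have hFmem : ∀ x : k, x ∈ F ↔ ∀ v ∈ rootGroup H, x * v ∈ rootGroup H ∧ ε (x * v) = x * ε v :=
    fun x => Iff.rfl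
  -- the cardinality of F
  have hFcard : Nat.card (torus H) + 1 ≤ Nat.card F := by
    have h1 : Nat.card F = (F : Set k).ncard := rfl
    have h3 : Nat.card (torus H) = ((fun c : kˣ => (c : k)) '' (torus H : Set kˣ)).ncard := by
      rw [Set.ncard_image_of_injective _ Units.val_injective]; rfl
    rw [h1, h3, ← Set.ncard_insert_of_notMem (a := (0 : k))]
    · apply Set.ncard_le_ncard _ (Set.toFinite _)
      rintro x (rfl | ⟨c, hc, rfl⟩)
      · exact F.zero_mem
      · intro v hv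
        exact ⟨torus_mul_mem hc hv, hT c hc v hv⟩
    · rintro ⟨c, _, hc⟩
      exact c.ne_zero hc
  let mulv : k →+ k := AddMonoidHom.mulRight v₀
  have hinj : Function.Injective mulv := by
    intro x y h
    exact mul_right_cancel₀ hv₀ h
  have hle : F.map mulv ≤ rootGroup H := by
    rintro _ ⟨x, hx, rfl⟩
    exact (hx v₀ hv₀H).1
  have hcardmap : Nat.card (F.map mulv) = Nat.card F := by
    exact (Nat.card_congr (F.equivMapOfInjective mulv hinj).toEquiv).symm
  obtain ⟨j, hj⟩ := AddSubgroup.card_dvd_of_le hle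
  rw [hcardmap] at hj
  have hVpos : 0 < Nat.card (rootGroup H) := Nat.card_pos
  have hj1 : j = 1 := by
    rcases Nat.lt_or_ge j 2 with h | h
    · interval_cases j
      · omega
      · rfl
    · exfalso
      have : Nat.card F * 2 ≤ Nat.card F * j := Nat.mul_le_mul_left _ h
      omega
  rw [hj1, mul_one, ← hcardmap] at hj
  have heq : F.map mulv = rootGroup H :=
    AddSubgroup.eq_of_le_of_card_ge hle hj.le
  refine ⟨ε v₀ / v₀, fun v hv => ?_⟩
  rw [← heq] at hv
  obtain ⟨x, hx, rfl⟩ := hv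
  show ε (x * v₀) = _ * (x * v₀)
  rw [(hx v₀ hv₀H).2]
  field_simp

end Finite

end Fermat.Agent.TWGroup
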