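import Fermat.Agent.TWGroup.CountP1

/-!
# Vanishing of `H¹(G, ad⁰(1))` for irreducible split subgroups `G ⊂ GL₂(k)` with determinant onto
# the units of the prime field.
-/

namespace Fermat.Agent.TWGroup

open Matrix OnePoint Matrix.GeneralLinearGroup MulAction

variable {k : Type*} [Field k]

/-- The action of `GL₂(k)` on `ad ⊗ det`. -/
def tact (g : GL (Fin 2) k) (X : Matrix (Fin 2) (Fin 2) k) : Matrix (Fin 2) (Fin 2) k :=
  g.val.det • (g.val * X * (g⁻¹).val)

lemma tact_one (X : Matrix (Fin 2) (Fin 2) k) : tact 1 X = X := by simp [tact]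

lemma tact_mul (g h : GL (Fin 2) k) (X : Matrix (Fin 2) (Fin 2) k) :
    tact (g * h) X = tact g (tact h X) := by
  simp only [tact, Units.val_mul, det_mul, _root_.mul_inv_rev, mul_smul, Matrix.mul_smul,
    Matrix.smul_mul, mul_assoc]

lemma tact_add (g : GL (Fin 2) k) (X Y : Matrix (Fin 2) (Fin 2) k) :
    tact g (X + Y) = tact g X + tact g Y := by
  simp only [tact, mul_add, add_mul, smul_add]

lemma tact_smul (g : GL (Fin 2) k) (c : k) (X : Matrix (Fin 2) (Fin 2) k) :
    tact g (c • X) = c • tact g X := by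
  simp only [tact, Matrix.mul_smul, Matrix.smul_mul, smul_comm c]

lemma tact_neg (g : GL (Fin 2) k) (X : Matrix (Fin 2) (Fin 2) k) :
    tact g (-X) = -tact g X := by
  simp only [tact, mul_neg, neg_mul, smul_neg]

lemma tact_sub (g : GL (Fin 2) k) (X Y : Matrix (Fin 2) (Fin 2) k) :
    tact g (X - Y) = tact g X - tact g Y := by
  rw [sub_eq_add_neg, tact_add, tact_neg, sub_eq_add_neg]

lemma tact_zero (g : GL (Fin 2) k) : tact g (0 : Matrix (Fin 2) (Fin 2) k) = 0 := by
  simp [tact]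

lemma tact_sum (g : GL (Fin 2) k) {ι : Type*} (s : Finset ι) (F : ι → Matrix (Fin 2) (Fin 2) k) :
    tact g (∑ i ∈ s, F i) = ∑ i ∈ s, tact g (F i) := by
  classical
  induction s using Finset.induction_on with
  | empty => simp [tact_zero]
  | insert a s ha ih => rw [Finset.sum_insert ha, Finset.sum_insert ha, tact_add, ih]

lemma trace_tact (g : GL (Fin 2) k) (X : Matrix (Fin 2) (Fin 2) k) (hX : X.trace = 0) :
    (tact g X).trace = 0 := by
  rw [tact, trace_smul, trace_conj', hX, smul_zero]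

/-- `f` is a cocycle on `G` with values in `ad⁰ ⊗ det`. -/
structure IsCoc (G : Subgroup (GL (Fin 2) k)) (f : GL (Fin 2) k → Matrix (Fin 2) (Fin 2) k) :
    Prop where
  tr : ∀ g ∈ G, (f g).trace = 0
  mul : ∀ g ∈ G, ∀ h ∈ G, f (g * h) = f g + tact g (f h)

lemma IsCoc.one {G : Subgroup (GL (Fin 2) k)} {f} (hf : IsCoc G f) : f 1 = 0 := by
  have := hf.mul 1 G.one_mem 1 G.one_mem
  rw [mul_one, tact_one] at this
  exact left_eq_add.mp this

lemma IsCoc.sub {G : Subgroup (GL (Fin 2) k)} {f} (hf : IsCoc G f)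
    (X : Matrix (Fin 2) (Fin 2) k) (hX : X.trace = 0) :
    IsCoc G (fun g => f g - (tact g X - X)) := by
  constructor
  · intro g hg
    rw [trace_sub, trace_sub, trace_tact _ _ hX, hX, hf.tr g hg]; simp
  · intro g hg h hh
    rw [hf.mul g hg h hh, tact_mul, tact_sub, tact_sub]
    abel

/-- conjugation formula -/
lemma IsCoc.conj {G : Subgroup (GL (Fin 2) k)} {f} (hf : IsCoc G f) {b u : GL (Fin 2) k}
    (hb : b ∈ G) (hu : u ∈ G) :
    f (b * u * b⁻¹) = f b + tact b (f u) - tact (b * u * b⁻¹) (f b) := by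
  have h1 : f (b * u * b⁻¹ * b) = f (b * u * b⁻¹) + tact (b * u * b⁻¹) (f b) :=
    hf.mul _ (G.mul_mem (G.mul_mem hb hu) (G.inv_mem hb)) _ hb
  rw [inv_mul_cancel_right, hf.mul b hb u hu] at h1
  rw [h1, add_sub_cancel_right]

/-- averaging -/
theorem IsCoc.exists_of_sylow [Finite k] {G : Subgroup (GL (Fin 2) k)} {f} (hf : IsCoc G f)
    (p : ℕ) [Fact p.Prime] [CharP k p] (Q : Sylow p G) (X : Matrix (Fin 2) (Fin 2) k)
    (hX : X.trace = 0) (hQ : ∀ g ∈ Q, f g.1 = tact g.1 X - X) :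
    ∃ Y : Matrix (Fin 2) (Fin 2) k, Y.trace = 0 ∧ ∀ g ∈ G, f g = tact g Y - Y := by
  classical
  have hfinG : Finite G := inferInstance
  have hF : Fintype (G ⧸ (Q : Subgroup G)) := Fintype.ofFinite _
  set f₁ : GL (Fin 2) k → Matrix (Fin 2) (Fin 2) k := fun g => f g - (tact g X - X) with hf₁
  have hc : IsCoc G f₁ := hf.sub X hX
  have hz : ∀ g ∈ Q, f₁ g.1 = 0 := fun g hg => by
    simp only [hf₁, hQ g hg, sub_self]
  set n : ℕ := Nat.card (G ⧸ (Q : Subgroup G)) with hn
  have hnp : (n : k) ≠ 0 := by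
    intro h0
    rw [CharP.cast_eq_zero_iff k p] at h0
    exact Q.not_dvd_index h0
  let F : G ⧸ (Q : Subgroup G) → Matrix (Fin 2) (Fin 2) k := fun x => f₁ x.out.1
  have hkey : ∀ (g : G) (x : G ⧸ (Q : Subgroup G)), F (g • x) = f₁ g.1 + tact g.1 (F x) := by
    intro g x
    have hx : g • x = ((g * x.out : G) : G ⧸ (Q : Subgroup G)) := by
      conv_lhs => rw [← QuotientGroup.out_eq' x]
      rfl
    obtain ⟨h, hh⟩ := QuotientGroup.mk_out_eq_mul (Q : Subgroup G) (g * x.out)
    show f₁ (g • x).out.1 = _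
    rw [hx, hh]
    show f₁ (g.1 * x.out.1 * h.1.1) = _
    rw [hc.mul _ (G.mul_mem g.2 x.out.2) _ h.1.2, hz h.1 h.2, tact_zero, add_zero,
      hc.mul _ g.2 _ x.out.2]
  have hsum : ∀ g : G, ∑ x, F x = (n : k) • f₁ g.1 + tact g.1 (∑ x, F x) := by
    intro g
    have h1 : ∑ x, F (g • x) = ∑ x, F x := Equiv.sum_comp (MulAction.toPerm g) F
    rw [← h1]
    conv_lhs => rw [Finset.sum_congr rfl (fun x _ => hkey g x)]
    rw [Finset.sum_add_distrib, Finset.sum_const, ← tact_sum, Finset.card_univ, h1, hn,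
      Nat.card_eq_fintype_card, Nat.cast_smul_eq_nsmul]
  have htrF : (∑ x, F x).trace = 0 := by
    rw [trace_sum]
    exact Finset.sum_eq_zero (fun x _ => hc.tr _ x.out.2)
  refine ⟨X - (n : k)⁻¹ • ∑ x, F x, ?_, ?_⟩
  · rw [trace_sub, trace_smul, htrF, hX]; simp
  · intro g hg
    have h1 := hsum ⟨g, hg⟩
    have h2 : f₁ g = (n : k)⁻¹ • (∑ x, F x - tact g (∑ x, F x)) := by
      have h2' : (n : k) • f₁ g = ∑ x, F x - tact g (∑ x, F x) := by
        rw [eq_sub_iff_add_eq]; exact h1.symm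
      rw [← h2', smul_smul, inv_mul_cancel₀ hnp, one_smul]
    rw [tact_sub, tact_smul]
    have h3 : f g = f₁ g + (tact g X - X) := by simp [hf₁]
    rw [h3, h2, smul_sub]
    abel

section Upper

/-- coordinates of the unipotent action -/
lemma tact_upper (v : k) (X : Matrix (Fin 2) (Fin 2) k) :
    tact (upperRightHom v) X =
      !![X 0 0 + v * X 1 0, X 0 1 + v * X 1 1 - v * X 0 0 - v ^ 2 * X 1 0;
        X 1 0, X 1 1 - v * X 1 0] := by
  have h1 : (upperRightHom v)⁻¹ = upperRightHom (-v) := (AddChar.map_neg_eq_inv _ _).symm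
  rw [tact, h1]
  have h2 : (upperRightHom v).val = !![1, v; 0, 1] := rfl
  have h3 : (upperRightHom (-v)).val = !![1, -v; 0, 1] := rfl
  rw [h2, h3]
  have e0 : (!![1, v; 0, 1] : Matrix (Fin 2) (Fin 2) k).det = 1 := by simp [det_fin_two]
  rw [e0, one_smul]
  ext i j
  rw [mul_apply_two, mul_apply_two, mul_apply_two]
  fin_cases i <;> fin_cases j <;> simp <;> ring

/-- the action of an upper triangular element -/
lemma tact_upper' {b : GL (Fin 2) k} (h10 : b 1 0 = 0) (X : Matrix (Fin 2) (Fin 2) k) :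
    (tact b X) 1 0 = b 1 1 ^ 2 * X 1 0 ∧
    (X 1 0 = 0 → X 0 0 = 0 → X 1 1 = 0 → tact b X = !![0, b 0 0 ^ 2 * X 0 1; 0, 0]) := by
  have hdet : b.val.det = b 0 0 * b 1 1 := by rw [det_fin_two, h10]; ring
  obtain ⟨n0, n1⟩ := diag_ne_zero h10
  have hinv : (b⁻¹).val = (b 0 0 * b 1 1)⁻¹ • !![b 1 1, -b 0 1; 0, b 0 0] := by
    have h1 : b.val * ((b 0 0 * b 1 1)⁻¹ • !![b 1 1, -b 0 1; 0, b 0 0]) = 1 := by
      rw [Matrix.mul_smul]
      ext i j
      rw [Matrix.smul_apply, mul_apply_two]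
      fin_cases i <;> fin_cases j
      · simp; field_simp
      · simp; right; ring
      · simp [h10]
      · simp [h10]; field_simp
    calc (b⁻¹).val = (b⁻¹).val * (b.val * ((b 0 0 * b 1 1)⁻¹ • !![b 1 1, -b 0 1; 0, b 0 0])) := by
          rw [h1, mul_one]
      _ = _ := by rw [← mul_assoc, inv_mul_val, one_mul]
  have hform : tact b X = b.val * X * !![b 1 1, -b 0 1; 0, b 0 0] := by
    rw [tact, hdet, hinv, Matrix.mul_smul, smul_smul, mul_inv_cancel₀ (mul_ne_zero n0 n1),
      one_smul]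
  rw [hform]
  constructor
  · rw [mul_apply_two, mul_apply_two, mul_apply_two, h10]
    simp; ring
  · intro h1 h2 h3
    ext i j
    rw [mul_apply_two, mul_apply_two, mul_apply_two]
    fin_cases i <;> fin_cases j <;> simp [h10, h1, h2, h3]; ring

end Upper

section Root

variable [Fintype k] [DecidableEq k]

/-- determinant one part -/
def detOne (G : Subgroup (GL (Fin 2) k)) : Subgroup (GL (Fin 2) k) :=
  G ⊓ (Matrix.GeneralLinearGroup.det (n := Fin 2) (R := k)).ker

omit [Fintype k] [DecidableEq k] in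
lemma mem_detOne {G : Subgroup (GL (Fin 2) k)} {g : GL (Fin 2) k} :
    g ∈ detOne G ↔ g ∈ G ∧ g.val.det = 1 := by
  rw [detOne, Subgroup.mem_inf, MonoidHom.mem_ker, Units.ext_iff]
  rfl

omit [Fintype k] [DecidableEq k] in
lemma upper_det (v : k) : (upperRightHom v).val.det = 1 := by
  have h2 : (upperRightHom v).val = !![1, v; 0, 1] := rfl
  rw [h2]; simp [det_fin_two]

omit [Fintype k] [DecidableEq k] in
lemma rootGroup_detOne (G : Subgroup (GL (Fin 2) k)) : rootGroup (detOne G) = rootGroup G := by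
  ext v
  rw [mem_rootGroup, mem_rootGroup, mem_detOne]
  exact and_iff_left (upper_det v)

omit [Fintype k] [DecidableEq k] in
/-- coordinates of a cocycle on the root group -/
lemma coc_coords {G : Subgroup (GL (Fin 2) k)} {f} (hf : IsCoc G f) {v w : k}
    (hv : v ∈ rootGroup G) (hw : w ∈ rootGroup G) :
    f (upperRightHom (v + w)) 1 0 = f (upperRightHom v) 1 0 + f (upperRightHom w) 1 0 ∧
    f (upperRightHom (v + w)) 0 0 = f (upperRightHom v) 0 0 + f (upperRightHom w) 0 0
      + v * f (upperRightHom w) 1 0 ∧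
    f (upperRightHom (v + w)) 0 1 = f (upperRightHom v) 0 1 + f (upperRightHom w) 0 1
      - 2 * v * f (upperRightHom w) 0 0 - v ^ 2 * f (upperRightHom w) 1 0 := by
  have h1 : f (upperRightHom (v + w)) = f (upperRightHom v) +
      tact (upperRightHom v) (f (upperRightHom w)) := by
    rw [AddChar.map_add_eq_mul]
    exact hf.mul _ hv _ hw
  have htr := hf.tr _ hw
  rw [trace_fin_two] at htr
  have h11 : f (upperRightHom w) 1 1 = - f (upperRightHom w) 0 0 := by linear_combination htr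
  rw [h1, tact_upper]
  generalize f (upperRightHom w) = B at *
  generalize f (upperRightHom v) = A at *
  refine ⟨?_, ?_, ?_⟩
  · simp [Matrix.add_apply]
  · simp [Matrix.add_apply]; ring
  · simp [Matrix.add_apply, h11]; ring

omit [Fintype k] [DecidableEq k] in
/-- first normal form of a cocycle on the root group -/
lemma coc_normal_form (h2 : (2 : k) ≠ 0) {G : Subgroup (GL (Fin 2) k)} {f} (hf : IsCoc G f)
    {v₀ : k} (hv₀ : v₀ ≠ 0) (hv₀G : v₀ ∈ rootGroup G) :
    ∃ c d : k, (∀ v ∈ rootGroup G, f (upperRightHom v) 1 0 = c * v ∧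
      f (upperRightHom v) 0 0 = c / 2 * v ^ 2 + d * v) ∧
      ∀ v ∈ rootGroup G, ∀ w ∈ rootGroup G, f (upperRightHom (v + w)) 0 1 =
        f (upperRightHom v) 0 1 + f (upperRightHom w) 0 1 - c * v * w * (v + w)
          - 2 * d * v * w := by
  have hF : ∀ v ∈ rootGroup G, f (upperRightHom v) 1 0 = f (upperRightHom v₀) 1 0 / v₀ * v := by
    intro v hv
    have h1 := (coc_coords hf hv hv₀G).2.1
    have h3 := (coc_coords hf hv₀G hv).2.1
    rw [add_comm v₀ v, h1] at h3
    field_simp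
    linear_combination -h3
  set c := f (upperRightHom v₀) 1 0 / v₀ with hc
  have hD : ∀ v ∈ rootGroup G, f (upperRightHom v) 0 0 =
      c / 2 * v ^ 2 + (f (upperRightHom v₀) 0 0 / v₀ - c / 2 * v₀) * v := by
    intro v hv
    have h1 := (coc_coords hf hv hv₀G).2.2
    have h3 := (coc_coords hf hv₀G hv).2.2
    rw [add_comm v₀ v, h1, hF v hv, hF v₀ hv₀G] at h3
    have h4 : 2 * v₀ * f (upperRightHom v) 0 0 = 2 * v₀ * (
      c / 2 * v ^ 2 + (f (upperRightHom v₀) 0 0 / v₀ - c / 2 * v₀) * v) := by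
      field_simp
      linear_combination h3
    exact mul_left_cancel₀ (mul_ne_zero h2 hv₀) h4
  refine ⟨c, f (upperRightHom v₀) 0 0 / v₀ - c / 2 * v₀, fun v hv => ⟨hF v hv, hD v hv⟩, ?_⟩
  intro v hv w hw
  rw [(coc_coords hf hv hw).2.2, hF w hw, hD w hw]
  field_simp
  ring

omit [DecidableEq k] [Fintype k] in
lemma upper_entries (v : k) : (upperRightHom v) 0 0 = 1 ∧ (upperRightHom v) 0 1 = v ∧
    (upperRightHom v) 1 0 = 0 ∧ (upperRightHom v) 1 1 = 1 := by
  have h2 : (upperRightHom v).val = !![1, v; 0, 1] := rfl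
  rw [h2]; simp

omit [DecidableEq k] [Fintype k] in
lemma c_torus {G : Subgroup (GL (Fin 2) k)} {f} (hf : IsCoc G f)
    {v₀ : k} (hv₀ : v₀ ≠ 0) (hv₀G : v₀ ∈ rootGroup G) {c : k} (hc0 : c ≠ 0)
    (hc : ∀ v ∈ rootGroup G, f (upperRightHom v) 1 0 = c * v)
    {b : GL (Fin 2) k} (hb : b ∈ G) (h10 : b 1 0 = 0) : b 0 0 / b 1 1 = b 1 1 ^ 2 := by
  have h1 := hf.conj hb hv₀G
  rw [conj_upper h10, tact_upper] at h1
  have h2 := congrFun (congrFun h1 1) 0
  rw [hc _ (conj_mem_rootGroup hb h10 hv₀G)] at h2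
  rw [Matrix.sub_apply, Matrix.add_apply, (tact_upper' h10 _).1, hc _ hv₀G] at h2
  simp only [of_apply, cons_val', cons_val_zero, cons_val_fin_one, cons_val_one] at h2
  have h3 : c * v₀ * (b 0 0 / b 1 1) = c * v₀ * b 1 1 ^ 2 := by linear_combination h2
  exact mul_left_cancel₀ (mul_ne_zero hc0 hv₀) h3

theorem c_eq_zero (h2 : (2 : k) ≠ 0) (p : ℕ) [Fact p.Prime] [CharP k p]
    {G : Subgroup (GL (Fin 2) k)}
    (hsplit : ∀ h ∈ G, ∃ α : k, α ^ 2 - h.val.trace * α + h.val.det = 0)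
    (hdet : ∀ n : ℕ, ¬ p ∣ n → ∃ g ∈ G, g.val.det = n)
    (hns : ∃ h ∈ detOne G, h • (∞ : OnePoint k) ≠ ∞)
    {f} (hf : IsCoc G f) {v₀ : k} (hv₀ : v₀ ≠ 0) (hv₀G : v₀ ∈ rootGroup G) {c d : k}
    (hc : ∀ v ∈ rootGroup G, f (upperRightHom v) 1 0 = c * v)
    (hE : ∀ v ∈ rootGroup G, ∀ w ∈ rootGroup G, f (upperRightHom (v + w)) 0 1 =
        f (upperRightHom v) 0 1 + f (upperRightHom w) 0 1 - c * v * w * (v + w)
          - 2 * d * v * w) : c = 0 := by
  by_contra hc0
  have hpp : p.Prime := Fact.out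
  have hp2 : p ≠ 2 := by
    rintro rfl
    apply h2
    have := CharP.cast_eq_zero k 2
    simpa using this
  by_cases hp3 : p = 3
  · subst hp3
    have h3 : (3 : k) = 0 := by
      have := CharP.cast_eq_zero k 3
      simpa using this
    have hv2 : v₀ + v₀ ∈ rootGroup G := (rootGroup G).add_mem hv₀G hv₀G
    have e1 := hE v₀ hv₀G v₀ hv₀G
    have e2 := hE (v₀ + v₀) hv2 v₀ hv₀G
    have e3 : v₀ + v₀ + v₀ = 0 := by linear_combination v₀ * h3
    have e4 : f (upperRightHom (v₀ + v₀ + v₀)) = 0 := by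
      rw [e3, AddChar.map_zero_eq_one]
      exact hf.one
    rw [e4, e1] at e2
    have e5 : (0 : Matrix (Fin 2) (Fin 2) k) 0 1 = 0 := rfl
    rw [e5] at e2
    have e6 : c * v₀ ^ 3 = 0 := by
      linear_combination -e2 + (3 * c * v₀ ^ 3 - f (upperRightHom v₀) 0 1 + 2 * d * v₀ ^ 2) * h3
    rcases mul_eq_zero.mp e6 with h | h
    · exact hc0 h
    · exact hv₀ (pow_eq_zero_iff (by norm_num) |>.mp h)
  · -- p ≥ 5
    have hp5 : 5 ≤ p := by
      have h5 := hpp.two_le
      by_contra hlt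
      have : p = 4 := by omega
      rw [this] at hpp
      exact absurd hpp (by norm_num)
    have htor : Nat.card (torus (detOne G)) ≤ 2 := by
      have h1 : (torus (detOne G) : Set kˣ) ⊆ {1, -1} := by
        intro x hx
        obtain ⟨b, hb, h10, hx'⟩ := mem_torus.mp hx
        rw [mem_detOne] at hb
        have h3 := c_torus hf hv₀ hv₀G hc0 hc hb.1 h10
        obtain ⟨n0, n1⟩ := diag_ne_zero h10
        have h4 := hb.2
        rw [det_fin_two, h10] at h4
        rw [hx', mul_div_cancel_right₀ _ n1] at h3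
        rw [hx'] at h4
        have h5 : (x : k) ^ 2 = 1 := by
          linear_combination h4 + (x : k) * h3
        rw [pow_two] at h5
        rcases mul_self_eq_one_iff.mp h5 with h | h
        · left; exact Units.ext h
        · right; exact Units.ext (by simpa using h)
      have h3 : Nat.card (torus (detOne G)) = (torus (detOne G) : Set kˣ).ncard := rfl
      rw [h3]
      refine (Set.ncard_le_ncard h1 (Set.toFinite _)).trans ?_
      exact Set.ncard_insert_le _ _ |>.trans (by simp)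
    have hsplit' : ∀ h ∈ detOne G, ∃ α : k, α ^ 2 - h.val.trace * α + h.val.det = 0 :=
      fun h hh => hsplit h (mem_detOne.mp hh).1
    have hbound := torus_bound (detOne G) h2 hsplit' hns hv₀ (by rw [rootGroup_detOne]; exact hv₀G)
    rw [rootGroup_detOne] at hbound
    have hord : addOrderOf v₀ = p := by
      apply addOrderOf_eq_prime
      · simp
      · exact hv₀
    have hzm : AddSubgroup.zmultiples v₀ ≤ rootGroup G := by
      rw [AddSubgroup.zmultiples_le]; exact hv₀G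
    have hdvd : p ∣ Nat.card (rootGroup G) := by
      have := AddSubgroup.card_dvd_of_le hzm
      rwa [Nat.card_zmultiples, hord] at this
    have hVpos : 0 < Nat.card (rootGroup G) := Nat.card_pos
    have hple := Nat.le_of_dvd hVpos hdvd
    have hp5' : p = 5 := by omega
    subst hp5'
    have hV5 : Nat.card (rootGroup G) = 5 := by omega
    have hVeq : AddSubgroup.zmultiples v₀ = rootGroup G := by
      apply AddSubgroup.eq_of_le_of_card_ge hzm
      rw [Nat.card_zmultiples, hord, hV5]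
    obtain ⟨g, hg, hgdet⟩ := hdet 2 (by norm_num)
    have hg0 : g * upperRightHom v₀ * g⁻¹ ∈ detOne G := by
      rw [mem_detOne]
      refine ⟨G.mul_mem (G.mul_mem hg hv₀G) (G.inv_mem hg), ?_⟩
      rw [Units.val_mul, Units.val_mul, det_conj', upper_det]
    have hpar : (g * upperRightHom v₀ * g⁻¹).IsParabolic := by
      rw [GeneralLinearGroup.isParabolic_conj_iff]
      obtain ⟨h00, h01, h10, h11⟩ := upper_entries v₀
      rw [GeneralLinearGroup.isParabolic_iff_of_upperTriangular h10, h00, h11, h01]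
      exact ⟨rfl, hv₀⟩
    obtain ⟨h, hh, hhg⟩ := exists_smul_infty_of_parabolic (detOne G) hv₀
      (by rw [← mem_rootGroup, rootGroup_detOne]; exact hv₀G) hg0 hpar
      (x := g • (∞ : OnePoint k)) (by
        rw [mul_smul, inv_smul_smul, mul_smul, upper_smul_infty])
    rw [mem_detOne] at hh
    have hbG : h⁻¹ * g ∈ G := G.mul_mem (G.inv_mem hh.1) hg
    have hb10 : (h⁻¹ * g) 1 0 = 0 := by
      rw [← smul_infty_eq_self_iff, mul_smul, ← hhg, inv_smul_smul]
    have hbdet : (h⁻¹ * g).val.det = 2 := by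
      have h5 : (h⁻¹ * g).val.det * h.val.det = g.val.det := by
        rw [mul_comm, ← det_mul, ← Units.val_mul, mul_inv_cancel_left]
      rw [hh.2, hgdet, mul_one] at h5
      simpa using h5
    set b := h⁻¹ * g with hb
    have h3 := c_torus hf hv₀ hv₀G hc0 hc hbG hb10
    have h4 := conj_mem_rootGroup hbG hb10 hv₀G
    rw [← hVeq] at h4
    obtain ⟨n, hn⟩ := AddSubgroup.mem_zmultiples_iff.mp h4
    rw [zsmul_eq_mul] at hn
    have h5 : (n : k) = b 0 0 / b 1 1 := mul_right_cancel₀ hv₀ hn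
    obtain ⟨n0, n1⟩ := diag_ne_zero hb10
    have h6 : (n : k) ^ 2 = 2 := by
      rw [det_fin_two, hb10, mul_zero, sub_zero] at hbdet
      rw [h5, h3]
      rw [div_eq_iff n1] at h3
      rw [h3] at hbdet
      linear_combination hbdet
    have h7 : ((n ^ 2 - 2 : ℤ) : k) = 0 := by push_cast; rw [h6]; ring
    rw [CharP.intCast_eq_zero_iff k 5] at h7
    have h8 : n % 5 = 0 ∨ n % 5 = 1 ∨ n % 5 = 2 ∨ n % 5 = 3 ∨ n % 5 = 4 := by omega
    have h9 : (n ^ 2 - 2) % 5 = 0 := Int.emod_eq_zero_of_dvd (by exact_mod_cast h7)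
    rcases h8 with h | h | h | h | h <;> · simp [pow_two, Int.sub_emod, Int.mul_emod, h] at h9

/-- a cocycle is a coboundary on the root group -/
theorem coboundary_on_root (h2 : (2 : k) ≠ 0) (p : ℕ) [Fact p.Prime] [CharP k p]
    {G : Subgroup (GL (Fin 2) k)}
    (hsplit : ∀ h ∈ G, ∃ α : k, α ^ 2 - h.val.trace * α + h.val.det = 0)
    (hdet : ∀ n : ℕ, ¬ p ∣ n → ∃ g ∈ G, g.val.det = n)
    (hns : ∃ h ∈ detOne G, h • (∞ : OnePoint k) ≠ ∞)
    {f} (hf : IsCoc G f) {v₀ : k} (hv₀ : v₀ ≠ 0) (hv₀G : v₀ ∈ rootGroup G) :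
    ∃ X : Matrix (Fin 2) (Fin 2) k, X.trace = 0 ∧
      ∀ v ∈ rootGroup G, f (upperRightHom v) = tact (upperRightHom v) X - X := by
  obtain ⟨c, d, hcd, hE⟩ := coc_normal_form h2 hf hv₀ hv₀G
  have hc := c_eq_zero h2 p hsplit hdet hns hf hv₀ hv₀G (fun v hv => (hcd v hv).1) hE
  subst hc
  -- remove d
  set X₁ : Matrix (Fin 2) (Fin 2) k := !![0, 0; d, 0] with hX₁
  have hX₁tr : X₁.trace = 0 := by simp [hX₁, trace_fin_two]
  set f₁ : GL (Fin 2) k → Matrix (Fin 2) (Fin 2) k := fun g => f g - (tact g X₁ - X₁) with hf₁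
  have hc₁ : IsCoc G f₁ := hf.sub X₁ hX₁tr
  set ε : k → k := fun v => f (upperRightHom v) 0 1 + d * v ^ 2 with hε
  have hf₁v : ∀ v ∈ rootGroup G, f₁ (upperRightHom v) = !![0, ε v; 0, 0] := by
    intro v hv
    have htr := hf.tr _ hv
    rw [trace_fin_two] at htr
    obtain ⟨e1, e2⟩ := hcd v hv
    simp only [hf₁, hε, tact_upper, hX₁]
    generalize f (upperRightHom v) = A at *
    ext i j
    rw [Matrix.sub_apply, Matrix.sub_apply]
    fin_cases i <;> fin_cases j
    · simp [e2]; ring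
    · simp; ring
    · simp [e1]
    · simp; linear_combination htr - e2
  have hadd : ∀ v ∈ rootGroup G, ∀ w ∈ rootGroup G, ε (v + w) = ε v + ε w := by
    intro v hv w hw
    simp only [hε]
    rw [hE v hv w hw]; ring
  -- torus relation
  have hT₀ : ∀ b ∈ detOne G, b 1 0 = 0 → ∀ v ∈ rootGroup G,
      ε (b 0 0 / b 1 1 * v) = b 0 0 / b 1 1 * ε v + 2 * (b 0 0 / b 1 1 * v) * f₁ b 0 0 := by
    intro b hb h10 v hv
    rw [mem_detOne] at hb
    obtain ⟨n0, n1⟩ := diag_ne_zero h10
    have hdb := hb.2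
    rw [det_fin_two, h10, mul_zero, sub_zero] at hdb
    have htrb := hc₁.tr b hb.1
    rw [trace_fin_two] at htrb
    have key : ∀ w ∈ rootGroup G, !![0, ε (b 0 0 / b 1 1 * w); 0, 0] =
        f₁ b + !![0, b 0 0 ^ 2 * ε w; 0, 0] - tact (upperRightHom (b 0 0 / b 1 1 * w)) (f₁ b) := by
      intro w hw
      have h1 := hc₁.conj hb.1 hw
      rw [conj_upper h10, hf₁v w hw, hf₁v _ (conj_mem_rootGroup hb.1 h10 hw)] at h1
      rw [h1]
      congr 2
      have := (tact_upper' h10 !![0, ε w; 0, 0]).2 (by simp) (by simp) (by simp)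
      rw [this]; simp
    have hφ : f₁ b 1 0 = 0 := by
      have h1 := congrFun (congrFun (key v₀ hv₀G) 0) 0
      rw [tact_upper] at h1
      simp at h1
      rcases h1 with h1 | h1
      · rcases h1 with h1 | h1
        · rcases h1 with h1 | h1
          · exact absurd h1 n0
          · exact absurd h1 n1
        · exact absurd h1 hv₀
      · exact h1
    have h1 := congrFun (congrFun (key v hv) 0) 1
    rw [tact_upper, Matrix.sub_apply, Matrix.add_apply] at h1
    simp only [of_apply, cons_val', cons_val_zero, cons_val_fin_one, cons_val_one] at h1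
    rw [h1, hφ]
    have h3 : b 0 0 / b 1 1 = b 0 0 ^ 2 := by
      rw [div_eq_iff n1]; linear_combination -(b 0 0) * hdb
    rw [← h3]
    linear_combination -(b 0 0 / b 1 1 * v) * htrb
  have hδ : ∀ b ∈ detOne G, b 1 0 = 0 → f₁ b 0 0 = 0 := by
    intro b hb h10
    have hbG := (mem_detOne.mp hb).1
    set χ := b 0 0 / b 1 1 with hχ
    have hχ0 : χ ≠ 0 := div_ne_zero (diag_ne_zero h10).1 (diag_ne_zero h10).2
    have hmem : ∀ n : ℕ, χ ^ n * v₀ ∈ rootGroup G := by
      intro n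
      induction n with
      | zero => simpa using hv₀G
      | succ n ih =>
        have := conj_mem_rootGroup hbG h10 ih
        rw [pow_succ', mul_assoc]
        exact this
    have hit : ∀ n : ℕ, ε (χ ^ n * v₀) = χ ^ n * ε v₀ + 2 * n * (χ ^ n * v₀) * f₁ b 0 0 := by
      intro n
      induction n with
      | zero => simp
      | succ n ih =>
        rw [pow_succ', mul_assoc, hT₀ b hb h10 _ (hmem n), ← hχ, ih]
        push_cast; ring
    have h1 := hit (Fintype.card k - 1)
    rw [FiniteField.pow_card_sub_one_eq_one _ hχ0, one_mul, one_mul,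
      Nat.cast_sub Fintype.one_lt_card.le] at h1
    simp only [FiniteField.cast_card_eq_zero, Nat.cast_one, zero_sub] at h1
    have h3 : 2 * v₀ * f₁ b 0 0 = 0 := by linear_combination h1
    exact (mul_eq_zero.mp h3).resolve_left (mul_ne_zero h2 hv₀)
  have hT : ∀ x ∈ torus (detOne G), ∀ v ∈ rootGroup (detOne G), ε (x * v) = x * ε v := by
    intro x hx v hv
    rw [rootGroup_detOne] at hv
    obtain ⟨b, hb, h10, hx'⟩ := mem_torus.mp hx
    have h1 := hT₀ b hb h10 v hv
    rw [hδ b hb h10, hx', mul_div_cancel_right₀ _ (diag_ne_zero h10).2] at h1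
    rw [h1]; ring
  obtain ⟨κ, hκ⟩ := exists_linear (detOne G) h2 (fun h hh => hsplit h (mem_detOne.mp hh).1) hns hv₀
    (by rw [rootGroup_detOne]; exact hv₀G) ε
    (by rw [rootGroup_detOne]; exact hadd) hT
  rw [rootGroup_detOne] at hκ
  refine ⟨X₁ + !![-κ / 2, 0; 0, κ / 2], ?_, ?_⟩
  · rw [trace_add, hX₁tr, trace_fin_two]; simp; ring
  · intro v hv
    have h1 : f (upperRightHom v) = f₁ (upperRightHom v) + (tact (upperRightHom v) X₁ - X₁) := by
      simp only [hf₁]; abel
    rw [h1, hf₁v v hv, hκ v hv, tact_add]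
    have h3 : !![0, κ * v; 0, 0] = tact (upperRightHom v) !![-κ / 2, 0; 0, κ / 2] -
        !![-κ / 2, 0; 0, κ / 2] := by
      rw [tact_upper]
      ext i j
      rw [Matrix.sub_apply]
      fin_cases i <;> fin_cases j
      · simp
      · simp; field_simp; ring
      · simp
      · simp
    rw [h3]; abel

/-- the conjugate subgroup `γ⁻¹ G γ` -/
def conjSub (G : Subgroup (GL (Fin 2) k)) (γ : GL (Fin 2) k) : Subgroup (GL (Fin 2) k) :=
  G.comap (MulAut.conj γ).toMonoidHom

omit [Fintype k] [DecidableEq k] in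
lemma mem_conjSub {G : Subgroup (GL (Fin 2) k)} {γ g : GL (Fin 2) k} :
    g ∈ conjSub G γ ↔ γ * g * γ⁻¹ ∈ G := Iff.rfl

omit [Fintype k] [DecidableEq k] in
lemma tact_def' (g : GL (Fin 2) k) (X : Matrix (Fin 2) (Fin 2) k) :
    tact g X = g.val.det • (g.val * X * (g⁻¹).val) := rfl

omit [Fintype k] [DecidableEq k] in
lemma conj_coc {G : Subgroup (GL (Fin 2) k)} {f} (hf : IsCoc G f) (γ : GL (Fin 2) k) :
    IsCoc (conjSub G γ) (fun g => (γ⁻¹).val * f (γ * g * γ⁻¹) * γ.val) := by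
  constructor
  · intro g hg
    rw [trace_mul_comm, ← mul_assoc, mul_inv_val, one_mul]
    exact hf.tr _ hg
  · intro g hg h hh
    have h1 : γ * (g * h) * γ⁻¹ = (γ * g * γ⁻¹) * (γ * h * γ⁻¹) := by group
    rw [h1, hf.mul _ (mem_conjSub.mp hg) _ (mem_conjSub.mp hh), mul_add, add_mul]
    congr 1
    rw [tact_def', tact_def']
    have h2 : (γ * g * γ⁻¹).val.det = g.val.det := by
      rw [Units.val_mul, Units.val_mul, det_conj']
    have h3 : (γ * g * γ⁻¹)⁻¹ = γ * g⁻¹ * γ⁻¹ := by group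
    rw [h2, h3, Matrix.mul_smul, Matrix.smul_mul]
    congr 1
    simp only [Units.val_mul]
    calc _ = ((γ⁻¹).val * γ.val) * g.val * ((γ⁻¹).val * f (γ * h * γ⁻¹) * γ.val) *
          (g⁻¹).val * ((γ⁻¹).val * γ.val) := by simp only [mul_assoc, Units.val_mul]
      _ = _ := by rw [inv_mul_val, one_mul, mul_one]

/-- **Vanishing of `H¹(G, ad⁰(1))`.** -/
theorem H1_vanishing (h2 : (2 : k) ≠ 0) (p : ℕ) [Fact p.Prime] [CharP k p]
    {G : Subgroup (GL (Fin 2) k)}
    (hsplit : ∀ h ∈ G, ∃ α : k, α ^ 2 - h.val.trace * α + h.val.det = 0)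
    (hdet : ∀ n : ℕ, ¬ p ∣ n → ∃ g ∈ G, g.val.det = n)
    (hirr : ∀ x : OnePoint k, ∃ g ∈ G, g • x ≠ x)
    {f} (hf : IsCoc G f) :
    ∃ X : Matrix (Fin 2) (Fin 2) k, X.trace = 0 ∧ ∀ g ∈ G, f g = tact g X - X := by
  classical
  have hfinG : Finite G := inferInstance
  obtain ⟨Q⟩ : Nonempty (Sylow p G) := inferInstance
  -- fixed point of Q
  have hcard : ¬ p ∣ Nat.card (OnePoint k) := by
    have h1 : Nat.card (OnePoint k) = Fintype.card k + 1 := by
      rw [Nat.card_eq_fintype_card]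
      exact Fintype.card_option
    rw [h1]
    intro h2
    have h3 : p ∣ Fintype.card k := by
      rw [← CharP.cast_eq_zero_iff k p]; simp
    have h4 := (Nat.dvd_add_right h3).mp h2
    exact (Fact.out : p.Prime).one_lt.ne' (Nat.dvd_one.mp h4)
  obtain ⟨y, hy⟩ := IsPGroup.nonempty_fixed_point_of_prime_not_dvd_card Q.2 (OnePoint k) hcard
  obtain ⟨γ, hγ⟩ := exists_smul_infty_eq y
  -- every element of Q is conjugate to an element of the root group
  have hQ : ∀ g ∈ Q, ∃ v ∈ rootGroup (conjSub G γ), g.1 = γ * upperRightHom v * γ⁻¹ := by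
    intro g hg
    have h1 : g.1 • y = y := hy ⟨g, hg⟩
    have h10 : (γ⁻¹ * g.1 * γ) 1 0 = 0 := by
      rw [← smul_infty_eq_self_iff, mul_smul, mul_smul, hγ, h1, ← hγ, inv_smul_smul]
    obtain ⟨n, hn⟩ := Q.2 ⟨g, hg⟩
    have hn' : g.1 ^ (p ^ n) = 1 := by
      have := congrArg (fun x => x.1.1) hn
      simpa using this
    set u := γ⁻¹ * g.1 * γ with hu
    have hun : u ^ (p ^ n) = 1 := by
      have := conj_pow (a := γ⁻¹) (b := g.1) (i := p ^ n)
      rw [inv_inv] at this
      rw [hu, this, hn']; group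
    have hpow : ∀ m : ℕ, (u ^ m) 1 0 = 0 ∧ (u ^ m) 0 0 = u 0 0 ^ m ∧ (u ^ m) 1 1 = u 1 1 ^ m := by
      intro m
      induction m with
      | zero => simp
      | succ m ih =>
        obtain ⟨i1, i2, i3⟩ := ih
        have e : ∀ i j, (u ^ (m + 1)) i j = (u ^ m) i 0 * u 0 j + (u ^ m) i 1 * u 1 j := by
          intro i j
          rw [pow_succ, Units.val_mul, mul_apply_two]
        refine ⟨?_, ?_, ?_⟩
        · rw [e, i1, h10]; ring
        · rw [e, i2, h10]; ring
        · rw [e, i1, i3]; ring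
    have hone : ∀ a : k, a ^ (p ^ n) = 1 → a = 1 := by
      intro a ha
      have : (a - 1) ^ (p ^ n) = 0 := by
        rw [sub_pow_char_pow, ha, one_pow, sub_self]
      exact sub_eq_zero.mp (pow_eq_zero_iff (pow_ne_zero n (Fact.out : p.Prime).ne_zero) |>.mp this)
    obtain ⟨_, i2, i3⟩ := hpow (p ^ n)
    rw [hun] at i2 i3
    have h00 : u 0 0 = 1 := hone _ (by rw [← i2]; simp)
    have h11 : u 1 1 = 1 := hone _ (by rw [← i3]; simp)
    have hform : u = upperRightHom (u 0 1) := by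
      apply Units.ext
      have h2 : (upperRightHom (u 0 1)).val = !![1, u 0 1; 0, 1] := rfl
      rw [h2]
      ext i j; fin_cases i <;> fin_cases j <;> simp [h10, h00, h11]
    have hg' : g.1 = γ * upperRightHom (u 0 1) * γ⁻¹ := by
      rw [← hform, hu]; group
    refine ⟨u 0 1, ?_, hg'⟩
    rw [mem_rootGroup, mem_conjSub, ← hg']
    exact g.2
  by_cases htriv : ∀ v ∈ rootGroup (conjSub G γ), v = 0
  · refine hf.exists_of_sylow p Q 0 (by simp) ?_
    intro g hg
    obtain ⟨v, hv, hgv⟩ := hQ g hg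
    rw [htriv v hv, AddChar.map_zero_eq_one, mul_one, mul_inv_cancel] at hgv
    rw [hgv, hf.one, tact_zero, sub_zero]
  · push Not at htriv
    obtain ⟨v₀, hv₀G, hv₀⟩ := htriv
    have hns : ∃ h ∈ detOne (conjSub G γ), h • (∞ : OnePoint k) ≠ ∞ := by
      by_contra hcon
      push Not at hcon
      obtain ⟨g, hg, hgx⟩ := hirr y
      apply hgx
      set g' := γ⁻¹ * g * γ with hg'
      have hg'G : g' ∈ conjSub G γ := by
        rw [mem_conjSub, hg']
        have : γ * (γ⁻¹ * g * γ) * γ⁻¹ = g := by group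
        rw [this]; exact hg
      have h1 : g'⁻¹ * upperRightHom v₀ * g' ∈ detOne (conjSub G γ) := by
        rw [mem_detOne]
        refine ⟨(conjSub G γ).mul_mem ((conjSub G γ).mul_mem ((conjSub G γ).inv_mem hg'G) hv₀G)
          hg'G, ?_⟩
        have := det_conj' g'⁻¹ (upperRightHom v₀).val
        rw [inv_inv, upper_det] at this
        rw [Units.val_mul, Units.val_mul]; exact this
      have h3 := hcon _ h1
      rw [mul_smul, mul_smul, inv_smul_eq_iff] at h3
      have h4 := upper_fixed hv₀ h3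
      rw [hg', mul_smul, mul_smul, inv_smul_eq_iff, hγ] at h4
      exact h4
    have hsplit' : ∀ h ∈ conjSub G γ, ∃ α : k, α ^ 2 - h.val.trace * α + h.val.det = 0 := by
      intro h hh
      obtain ⟨α, hα⟩ := hsplit _ hh
      refine ⟨α, ?_⟩
      have e1 : (MulAut.conj γ h).val = γ.val * h.val * (γ⁻¹).val := rfl
      change α ^ 2 - (MulAut.conj γ h).val.trace * α + (MulAut.conj γ h).val.det = 0 at hα
      rwa [e1, trace_conj', det_conj'] at hα
    have hdet' : ∀ n : ℕ, ¬ p ∣ n → ∃ g ∈ conjSub G γ, g.val.det = n := by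
      intro n hn
      obtain ⟨g, hg, hgn⟩ := hdet n hn
      refine ⟨γ⁻¹ * g * γ, ?_, ?_⟩
      · rw [mem_conjSub]
        have : γ * (γ⁻¹ * g * γ) * γ⁻¹ = g := by group
        rw [this]; exact hg
      · have := det_conj' γ⁻¹ g.val
        rw [inv_inv] at this
        rw [Units.val_mul, Units.val_mul, this, hgn]
    obtain ⟨X, hXtr, hX⟩ := coboundary_on_root h2 p hsplit' hdet' hns (conj_coc hf γ) hv₀ hv₀G
    refine hf.exists_of_sylow p Q (γ.val * X * (γ⁻¹).val) (by rw [trace_conj', hXtr]) ?_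
    intro g hg
    obtain ⟨v, hv, hgv⟩ := hQ g hg
    have h1 := hX v hv
    rw [← hgv] at h1
    have h3 : f g.1 = γ.val * ((γ⁻¹).val * f g.1 * γ.val) * (γ⁻¹).val := by
      calc f g.1 = (γ.val * (γ⁻¹).val) * f g.1 * (γ.val * (γ⁻¹).val) := by
            rw [mul_inv_val, one_mul, mul_one]
        _ = _ := by simp only [mul_assoc]
    rw [h3, h1, mul_sub, sub_mul]
    congr 1
    rw [hgv, tact_def', tact_def', upper_det, one_smul]
    have h4 : (γ * upperRightHom v * γ⁻¹).val.det = 1 := by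
      rw [Units.val_mul, Units.val_mul, det_conj', upper_det]
    have h5 : (γ * upperRightHom v * γ⁻¹)⁻¹ = γ * (upperRightHom v)⁻¹ * γ⁻¹ := by group
    rw [h4, one_smul, h5]
    simp only [Units.val_mul]
    calc _ = γ.val * (upperRightHom v).val * (((γ⁻¹).val * γ.val) * X * ((γ⁻¹).val * γ.val)) *
          ((upperRightHom v)⁻¹).val * (γ⁻¹).val := by
            rw [inv_mul_val, one_mul, mul_one]; simp only [mul_assoc]
      _ = _ := by simp only [mul_assoc]

end Root

end Fermat.Agent.TWGroup
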