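import Mathlib.LinearAlgebra.Matrix.GeneralLinearGroup.FinTwo
import Mathlib.LinearAlgebra.Matrix.Adjugate
import Mathlib.Algebra.CharP.Basic
import Mathlib.Tactic

/-!
# Regular semisimple elements in irreducible subgroups of `SL₂(k)`, `k` of odd characteristic

Main result: `exists_regular_trace_ne_zero`: if `r : Γ → GL₂(k)` has determinant one, split
characteristic polynomials, no stable line, and `X ≠ 0` is a traceless matrix then there is a
regular semisimple `r σ` with `trace (X * r σ) ≠ 0`.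
-/

set_option autoImplicit false

namespace Fermat.Agent.TWGroup

open Matrix

variable {k : Type*} [Field k]

/-- An element of `GL₂(k)` with prescribed first column. -/
lemma exists_gl_mulVec_eq (v : Fin 2 → k) (hv : v ≠ 0) :
    ∃ g : GL (Fin 2) k, (g : Matrix (Fin 2) (Fin 2) k) *ᵥ ![1, 0] = v := by
  by_cases h0 : v 0 = 0
  · have h1 : v 1 ≠ 0 := by
      intro h1; apply hv; ext i; fin_cases i
      · exact h0
      · exact h1
    refine ⟨GeneralLinearGroup.mkOfDetNeZero !![v 0, 1; v 1, 0] (by simp [det_fin_two, h1]), ?_⟩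
    ext i; fin_cases i <;>
      simp [GeneralLinearGroup.mkOfDetNeZero, mulVec, dotProduct, Fin.sum_univ_two]
  · refine ⟨GeneralLinearGroup.mkOfDetNeZero !![v 0, 0; v 1, 1] (by simp [det_fin_two, h0]), ?_⟩
    ext i; fin_cases i <;>
      simp [GeneralLinearGroup.mkOfDetNeZero, mulVec, dotProduct, Fin.sum_univ_two]

lemma trace_mul_two (A B : Matrix (Fin 2) (Fin 2) k) :
    (A * B).trace = A 0 0 * B 0 0 + A 0 1 * B 1 0 + (A 1 0 * B 0 1 + A 1 1 * B 1 1) := by
  rw [trace_fin_two, Matrix.mul_apply, Matrix.mul_apply, Fin.sum_univ_two, Fin.sum_univ_two]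

lemma mul_apply_two (A B : Matrix (Fin 2) (Fin 2) k) (i j : Fin 2) :
    (A * B) i j = A i 0 * B 0 j + A i 1 * B 1 j := by
  rw [Matrix.mul_apply, Fin.sum_univ_two]

/-- `r` has no stable line over `k`. -/
def NoStableLine {Γ : Type*} [Group Γ] (r : Γ →* GL (Fin 2) k) : Prop :=
  ∀ v : Fin 2 → k, v ≠ 0 → ∃ σ, ∀ c : k, (r σ).val *ᵥ v ≠ c • v

/-- conjugation of a representation -/
def conj {Γ : Type*} [Group Γ] (g : GL (Fin 2) k) (r : Γ →* GL (Fin 2) k) : Γ →* GL (Fin 2) k :=
  (MulAut.conj g).toMonoidHom.comp r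

lemma conj_apply {Γ : Type*} [Group Γ] (g : GL (Fin 2) k) (r : Γ →* GL (Fin 2) k) (σ : Γ) :
    conj g r σ = g * r σ * g⁻¹ := rfl

lemma conj_val {Γ : Type*} [Group Γ] (g : GL (Fin 2) k) (r : Γ →* GL (Fin 2) k) (σ : Γ) :
    (conj g r σ).val = g.val * (r σ).val * (g⁻¹).val := rfl

lemma inv_mul_val (g : GL (Fin 2) k) : (g⁻¹).val * g.val = 1 := by
  rw [← Units.val_mul, inv_mul_cancel, Units.val_one]

lemma mul_inv_val (g : GL (Fin 2) k) : g.val * (g⁻¹).val = 1 := by
  rw [← Units.val_mul, mul_inv_cancel, Units.val_one]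

lemma trace_conj' (g : GL (Fin 2) k) (M : Matrix (Fin 2) (Fin 2) k) :
    (g.val * M * (g⁻¹).val).trace = M.trace := by
  rw [trace_mul_comm, ← mul_assoc, inv_mul_val, one_mul]

lemma det_conj' (g : GL (Fin 2) k) (M : Matrix (Fin 2) (Fin 2) k) :
    (g.val * M * (g⁻¹).val).det = M.det := by
  rw [det_mul, det_mul, mul_comm, ← mul_assoc, ← det_mul, inv_mul_val, det_one, one_mul]

lemma NoStableLine.conj {Γ : Type*} [Group Γ] {r : Γ →* GL (Fin 2) k} (h : NoStableLine r)
    (g : GL (Fin 2) k) : NoStableLine (conj g r) := by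
  intro v hv
  have hv' : (g⁻¹).val *ᵥ v ≠ 0 := by
    intro h0
    apply hv
    have : g.val *ᵥ ((g⁻¹).val *ᵥ v) = 0 := by rw [h0, mulVec_zero]
    rwa [mulVec_mulVec, mul_inv_val, one_mulVec] at this
  obtain ⟨σ, hσ⟩ := h _ hv'
  refine ⟨σ, fun c hc => hσ c ?_⟩
  rw [conj_val, ← mulVec_mulVec, ← mulVec_mulVec] at hc
  have := congrArg (fun w => (g⁻¹).val *ᵥ w) hc
  rw [mulVec_mulVec, inv_mul_val, one_mulVec, mulVec_smul] at this
  exact this

/-- The orthogonal of the regular elements. -/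
def regPerp {Γ : Type*} [Group Γ] (r : Γ →* GL (Fin 2) k) :
    Submodule k (Matrix (Fin 2) (Fin 2) k) where
  carrier := {Y | ∀ σ, (r σ).val.trace ^ 2 ≠ 4 → (Y * (r σ).val).trace = 0}
  add_mem' := by
    intro a b ha hb σ hσ
    rw [add_mul, trace_add, ha σ hσ, hb σ hσ, add_zero]
  zero_mem' := by
    intro σ _; simp
  smul_mem' := by
    intro c a ha σ hσ
    rw [smul_mul, trace_smul, ha σ hσ, smul_zero]

lemma conj_mem_regPerp {Γ : Type*} [Group Γ] {r : Γ →* GL (Fin 2) k}
    {Y : Matrix (Fin 2) (Fin 2) k} (hY : Y ∈ regPerp r) (τ : Γ) :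
    (r τ).val * Y * ((r τ)⁻¹).val ∈ regPerp r := by
  intro σ hσ
  have h1 : (r (τ⁻¹ * σ * τ)).val = ((r τ)⁻¹).val * (r σ).val * (r τ).val := by
    rw [map_mul, map_mul, map_inv]; rfl
  have h2 : (r (τ⁻¹ * σ * τ)).val.trace = (r σ).val.trace := by
    rw [h1, trace_mul_comm, ← mul_assoc, mul_inv_val, one_mul]
  have := hY (τ⁻¹ * σ * τ) (by rw [h2]; exact hσ)
  rw [h1] at this
  rw [mul_assoc, mul_assoc, trace_mul_comm, ← this]
  congr 1
  simp only [mul_assoc]

lemma irr_10 {Γ : Type*} [Group Γ] {r : Γ →* GL (Fin 2) k} (h : NoStableLine r) :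
    ∃ σ, (r σ).val 1 0 ≠ 0 := by
  obtain ⟨σ, hσ⟩ := h ![1, 0] (by intro h0; simpa using congrFun h0 0)
  refine ⟨σ, fun h0 => hσ ((r σ).val 0 0) ?_⟩
  ext i; fin_cases i
  · simp [mulVec, dotProduct, Fin.sum_univ_two]
  · simp [mulVec, dotProduct, Fin.sum_univ_two, h0]

lemma irr_01 {Γ : Type*} [Group Γ] {r : Γ →* GL (Fin 2) k} (h : NoStableLine r) :
    ∃ σ, (r σ).val 0 1 ≠ 0 := by
  obtain ⟨σ, hσ⟩ := h ![0, 1] (by intro h0; simpa using congrFun h0 1)
  refine ⟨σ, fun h0 => hσ ((r σ).val 1 1) ?_⟩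
  ext i; fin_cases i
  · simp [mulVec, dotProduct, Fin.sum_univ_two, h0]
  · simp [mulVec, dotProduct, Fin.sum_univ_two]

/-- explicit inverse for determinant one -/
lemma inv_val_of_det_one (g : GL (Fin 2) k) (h : g.val.det = 1) :
    (g⁻¹).val = !![g.val 1 1, -g.val 0 1; -g.val 1 0, g.val 0 0] := by
  have h1 : !![g.val 1 1, -g.val 0 1; -g.val 1 0, g.val 0 0] * g.val = 1 := by
    rw [det_fin_two] at h
    ext i j; fin_cases i <;> fin_cases j <;> simp [Matrix.mul_apply, Fin.sum_univ_two]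
    · linear_combination h
    · ring
    · ring
    · linear_combination h
  calc (g⁻¹).val = (!![g.val 1 1, -g.val 0 1; -g.val 1 0, g.val 0 0] * g.val) * (g⁻¹).val := by
        rw [h1, one_mul]
    _ = _ := by rw [mul_assoc, mul_inv_val, mul_one]

/-- existence of a regular element in an irreducible group containing a nontrivial unipotent in
upper triangular form. -/
lemma exists_regular_of_unipotent (h2 : (2 : k) ≠ 0) {Γ : Type*} [Group Γ]
    {r : Γ →* GL (Fin 2) k} (hirr : NoStableLine r)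
    (τ : Γ) (v : k) (hv : v ≠ 0) (hτ : (r τ).val = !![1, v; 0, 1]) :
    ∃ σ, (r σ).val.trace ^ 2 ≠ 4 := by
  by_contra hcon
  push Not at hcon
  obtain ⟨σ, hσ⟩ := irr_10 hirr
  have e1 := hcon σ
  have e2 := hcon (τ * σ)
  have e3 := hcon (τ * (τ * σ))
  simp only [map_mul, Units.val_mul, hτ] at e2 e3
  set g := (r σ).val with hg
  have t1 : g.trace = g 0 0 + g 1 1 := trace_fin_two g
  have t2 : (!![1, v; 0, 1] * g).trace = g 0 0 + g 1 1 + v * g 1 0 := by
    rw [trace_mul_two]; simp; ring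
  have t3 : (!![1, v; 0, 1] * (!![1, v; 0, 1] * g)).trace = g 0 0 + g 1 1 + 2 * (v * g 1 0) := by
    rw [trace_mul_two, mul_apply_two, mul_apply_two, mul_apply_two, mul_apply_two]; simp; ring
  rw [t1] at e1
  rw [t2] at e2
  rw [t3] at e3
  have hw : v * g 1 0 ≠ 0 := mul_ne_zero hv hσ
  set w := v * g 1 0
  set T := g 0 0 + g 1 1
  have f1 : w * (2 * T + w) = 0 := by linear_combination e2 - e1
  have f2 : w * (4 * T + 4 * w) = 0 := by linear_combination e3 - e1
  have f1' := (mul_eq_zero.mp f1).resolve_left hw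
  have f2' := (mul_eq_zero.mp f2).resolve_left hw
  have : 2 * w = 0 := by linear_combination f2' - 2 * f1'
  rcases mul_eq_zero.mp this with h | h
  · exact h2 h
  · exact hw h

lemma regPerp_eq_bot_of_unipotent (h2 : (2 : k) ≠ 0) {Γ : Type*} [Group Γ]
    {r : Γ →* GL (Fin 2) k} (hdet : ∀ σ, (r σ).val.det = 1) (hirr : NoStableLine r)
    (τ : Γ) (v : k) (hv : v ≠ 0) (hτ : (r τ).val = !![1, v; 0, 1])
    (X : Matrix (Fin 2) (Fin 2) k) (hXtr : X.trace = 0) (hX : X ∈ regPerp r) : X = 0 := by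
  by_contra hX0
  -- the conjugation formula
  have hinv : ((r τ)⁻¹).val = !![1, -v; 0, 1] := by
    rw [inv_val_of_det_one _ (hdet τ), hτ]; simp
  have hconj : ∀ x y z : k, !![y, x; z, -y] ∈ regPerp r →
      !![v * z, -2 * v * y - v ^ 2 * z; 0, -(v * z)] ∈ regPerp r := by
    intro x y z hY
    have h1 := (regPerp r).sub_mem (conj_mem_regPerp hY τ) hY
    rw [hinv, hτ] at h1
    convert h1 using 1
    ext i j; fin_cases i <;> fin_cases j <;> simp [Matrix.mul_apply, Fin.sum_univ_two] <;> ring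
  have hE_of : ∀ x y z : k, !![y, x; z, -y] ∈ regPerp r → !![y, x; z, -y] ≠ 0 →
      !![0, 1; 0, 0] ∈ regPerp r := by
    intro x y z hY hne
    have h1 := hconj x y z hY
    by_cases hz : z = 0
    · subst hz
      by_cases hy : y = 0
      · subst hy
        have hx : x ≠ 0 := by
          rintro rfl; apply hne
          ext i j; fin_cases i <;> fin_cases j <;> simp
        have := (regPerp r).smul_mem x⁻¹ hY
        convert this using 1
        ext i j; fin_cases i <;> fin_cases j <;> simp [hx]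
      · have := (regPerp r).smul_mem (-2 * v * y)⁻¹ h1
        convert this using 1
        ext i j; fin_cases i <;> fin_cases j <;> simp [h2, hv, hy]
        field_simp
    · have h3 := hconj _ _ _ h1
      have h4 : !![(0 : k), -2 * v * (v * z); 0, 0] ∈ regPerp r := by
        convert h3 using 1
        ext i j; fin_cases i <;> fin_cases j <;> simp
      have := (regPerp r).smul_mem (-2 * v * (v * z))⁻¹ h4
      convert this using 1
      ext i j; fin_cases i <;> fin_cases j <;> simp [h2, hv, hz]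
      field_simp
  have hD_of : ∀ x y z : k, !![y, x; z, -y] ∈ regPerp r → z ≠ 0 → !![0, 1; 0, 0] ∈ regPerp r →
      !![1, 0; 0, -1] ∈ regPerp r ∧ !![0, 0; 1, 0] ∈ regPerp r := by
    intro x y z hY hz hE
    have h1 := hconj x y z hY
    have hD : !![(1 : k), 0; 0, -1] ∈ regPerp r := by
      have h3 := (regPerp r).smul_mem (v * z)⁻¹
        ((regPerp r).sub_mem h1 ((regPerp r).smul_mem (-2 * v * y - v ^ 2 * z) hE))
      convert h3 using 1
      ext i j; fin_cases i <;> fin_cases j <;> simp <;> field_simp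
    refine ⟨hD, ?_⟩
    have h3 := (regPerp r).smul_mem z⁻¹ ((regPerp r).sub_mem ((regPerp r).sub_mem hY
      ((regPerp r).smul_mem x hE)) ((regPerp r).smul_mem y hD))
    convert h3 using 1
    ext i j; fin_cases i <;> fin_cases j <;> simp [hz]
  -- write X in coordinates
  have hXform : X = !![X 0 0, X 0 1; X 1 0, -X 0 0] := by
    rw [trace_fin_two] at hXtr
    ext i j; fin_cases i <;> fin_cases j <;> simp
    linear_combination hXtr
  have hE : !![0, 1; 0, 0] ∈ regPerp r := by
    apply hE_of (X 0 1) (X 0 0) (X 1 0)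
    · rw [← hXform]; exact hX
    · rw [← hXform]; exact hX0
  obtain ⟨σ, hσ⟩ := irr_10 hirr
  have hF := conj_mem_regPerp hE σ
  rw [inv_val_of_det_one _ (hdet σ)] at hF
  set g := (r σ).val with hg
  have hF' : !![-(g 0 0 * g 1 0), g 0 0 ^ 2; -g 1 0 ^ 2, -(-(g 0 0 * g 1 0))] ∈ regPerp r := by
    convert hF using 1
    ext i j; fin_cases i <;> fin_cases j <;> simp [Matrix.mul_apply, Fin.sum_univ_two] <;> ring
  obtain ⟨hD, hFF⟩ := hD_of _ _ _ hF' (neg_ne_zero.mpr (pow_ne_zero 2 hσ)) hE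
  obtain ⟨ρ, hρ⟩ := exists_regular_of_unipotent h2 hirr τ v hv hτ
  have c1 := hE ρ hρ
  have c2 := hD ρ hρ
  have c3 := hFF ρ hρ
  have hd := hdet ρ
  set m := (r ρ).val
  rw [trace_mul_two] at c1 c2 c3
  simp only [of_apply, cons_val', cons_val_zero, cons_val_fin_one, cons_val_one] at c1 c2 c3
  rw [det_fin_two] at hd
  apply hρ
  rw [trace_fin_two]
  linear_combination 4 * hd + 4 * m 0 1 * c1 + (m 0 0 - m 1 1) * c2

lemma eq_zero_of_diag (h2 : (2 : k) ≠ 0) {Γ : Type*} [Group Γ]
    {r : Γ →* GL (Fin 2) k} (hirr : NoStableLine r)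
    (τ : Γ) (α β : k) (hαβ : α ≠ β) (hτ : (r τ).val = !![α, 0; 0, β])
    (X : Matrix (Fin 2) (Fin 2) k) (hXtr : X.trace = 0)
    (hX : ∀ σ, (X * (r σ).val).trace = 0) : X = 0 := by
  have hXtr' : X 1 1 = -X 0 0 := by rw [trace_fin_two] at hXtr; linear_combination hXtr
  have hd : α - β ≠ 0 := sub_ne_zero.mpr hαβ
  have hy : X 0 0 = 0 := by
    have h1 := hX τ
    rw [trace_mul_two, hτ] at h1
    simp at h1
    have : (α - β) * X 0 0 = 0 := by rw [hXtr'] at h1; linear_combination h1
    exact (mul_eq_zero.mp this).resolve_left hd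
  have key : ∀ σ, X 0 1 * (r σ).val 1 0 = 0 ∧ X 1 0 * (r σ).val 0 1 = 0 := by
    intro σ
    have h1 := hX σ
    have h3 := hX (τ * σ)
    rw [map_mul, Units.val_mul, hτ] at h3
    rw [trace_mul_two, hXtr', hy] at h1 h3
    rw [mul_apply_two, mul_apply_two, mul_apply_two, mul_apply_two] at h3
    simp at h1 h3
    -- h1 : X01 g10 + X10 g01 = 0 ; h3 : X01 β g10 + X10 α g01 = 0
    constructor
    · have : (α - β) * (X 0 1 * (r σ).val 1 0) = 0 := by linear_combination α * h1 - h3
      exact (mul_eq_zero.mp this).resolve_left hd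
    · have : (α - β) * (X 1 0 * (r σ).val 0 1) = 0 := by linear_combination h3 - β * h1
      exact (mul_eq_zero.mp this).resolve_left hd
  obtain ⟨σ, hσ⟩ := irr_10 hirr
  obtain ⟨σ', hσ'⟩ := irr_01 hirr
  have hx := (mul_eq_zero.mp (key σ).1).resolve_right hσ
  have hz := (mul_eq_zero.mp (key σ').2).resolve_right hσ'
  ext i j; fin_cases i <;> fin_cases j
  · simpa using hy
  · simpa using hx
  · simpa using hz
  · simp [hXtr', hy]

lemma conj_mem_regPerp_conj {Γ : Type*} [Group Γ] {r : Γ →* GL (Fin 2) k}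
    {Y : Matrix (Fin 2) (Fin 2) k} (hY : Y ∈ regPerp r) (g : GL (Fin 2) k) :
    g.val * Y * (g⁻¹).val ∈ regPerp (conj g r) := by
  intro σ hσ
  rw [conj_val, trace_conj'] at hσ
  rw [conj_val]
  have : g.val * Y * (g⁻¹).val * (g.val * (r σ).val * (g⁻¹).val) =
      g.val * (Y * (r σ).val) * (g⁻¹).val := by
    calc _ = g.val * Y * ((g⁻¹).val * g.val) * (r σ).val * (g⁻¹).val := by simp only [mul_assoc]
      _ = _ := by rw [inv_mul_val, mul_one]; simp only [mul_assoc]
  rw [this, trace_conj']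
  exact hY σ hσ

lemma conj_eq_zero (g : GL (Fin 2) k) {Y : Matrix (Fin 2) (Fin 2) k}
    (h : g.val * Y * (g⁻¹).val = 0) : Y = 0 := by
  have : (g⁻¹).val * (g.val * Y * (g⁻¹).val) * g.val = Y := by
    calc _ = ((g⁻¹).val * g.val) * Y * ((g⁻¹).val * g.val) := by simp only [mul_assoc]
      _ = Y := by rw [inv_mul_val, one_mul, mul_one]
  rw [← this, h]; simp

/-- put a matrix with an eigenvector in upper triangular form. -/
lemma exists_conj_upper (M : Matrix (Fin 2) (Fin 2) k) (α : k) (v : Fin 2 → k) (hv : v ≠ 0)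
    (hMv : M *ᵥ v = α • v) :
    ∃ g : GL (Fin 2) k, (g.val * M * (g⁻¹).val) 0 0 = α ∧ (g.val * M * (g⁻¹).val) 1 0 = 0 := by
  obtain ⟨h, hh⟩ := exists_gl_mulVec_eq v hv
  refine ⟨h⁻¹, ?_⟩
  have h1 : ((h⁻¹).val * M * ((h⁻¹)⁻¹).val) *ᵥ ![1, 0] = α • ![1, 0] := by
    rw [inv_inv, ← mulVec_mulVec, hh, ← mulVec_mulVec, hMv, mulVec_smul, ← hh, mulVec_mulVec,
      inv_mul_val, one_mulVec]
  constructor
  · have := congrFun h1 0
    simpa [mulVec, dotProduct, Fin.sum_univ_two] using this
  · have := congrFun h1 1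
    simpa [mulVec, dotProduct, Fin.sum_univ_two] using this

lemma exists_eigenvector (M : Matrix (Fin 2) (Fin 2) k) (α : k)
    (hα : α ^ 2 - M.trace * α + M.det = 0) : ∃ v : Fin 2 → k, v ≠ 0 ∧ M *ᵥ v = α • v := by
  have hdet : (M - Matrix.scalar (Fin 2) α).det = 0 := by
    rw [trace_fin_two, det_fin_two] at hα
    rw [det_fin_two]
    simp
    linear_combination hα
  obtain ⟨v, hv, hMv⟩ := Matrix.exists_mulVec_eq_zero_iff.mpr hdet
  refine ⟨v, hv, ?_⟩
  rw [sub_mulVec, sub_eq_zero] at hMv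
  rw [hMv]
  ext i; fin_cases i <;> simp [mulVec, dotProduct, Fin.sum_univ_two, Matrix.scalar]

/-- **Main theorem on regular elements.** -/
theorem exists_regular_trace_ne_zero (h2 : (2 : k) ≠ 0) {Γ : Type*} [Group Γ]
    {r : Γ →* GL (Fin 2) k} (hdet : ∀ σ, (r σ).val.det = 1)
    (hsplit : ∀ σ, ∃ α : k, α ^ 2 - (r σ).val.trace * α + 1 = 0) (hirr : NoStableLine r)
    (X : Matrix (Fin 2) (Fin 2) k) (hXtr : X.trace = 0) (hX0 : X ≠ 0) :
    ∃ σ, (r σ).val.trace ^ 2 ≠ 4 ∧ (X * (r σ).val).trace ≠ 0 := by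
  by_contra hcon
  push Not at hcon
  have hX : X ∈ regPerp r := hcon
  apply hX0
  by_cases hpar : ∃ τ, (r τ).val.trace ^ 2 = 4 ∧
      ¬ ((r τ).val 0 1 = 0 ∧ (r τ).val 1 0 = 0 ∧ (r τ).val 0 0 = (r τ).val 1 1)
  · -- parabolic case
    obtain ⟨τ, hτ4, hτns⟩ := hpar
    set M := (r τ).val with hM
    have hdM := hdet τ
    rw [← hM, det_fin_two] at hdM
    rw [trace_fin_two] at hτ4
    have hM2 : (r (τ * τ)).val = M * M := by rw [map_mul, Units.val_mul]
    -- M * M has trace 2
    have htr2 : (M * M).trace = 2 := by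
      rw [trace_mul_two]; linear_combination hτ4 - 2 * hdM
    have hT0 : M 0 0 + M 1 1 ≠ 0 := by
      intro h0; rw [h0] at hτ4
      have : (2 : k) * 2 = 0 := by linear_combination -hτ4
      rcases mul_eq_zero.mp this with h | h <;> exact h2 h
    have hns2 : ¬ ((M * M) 0 1 = 0 ∧ (M * M) 1 0 = 0 ∧ (M * M) 0 0 = (M * M) 1 1) := by
      rintro ⟨h01, h10, h00⟩
      rw [mul_apply_two] at h01 h10
      rw [mul_apply_two, mul_apply_two] at h00
      apply hτns
      refine ⟨?_, ?_, ?_⟩
      · have : M 0 1 * (M 0 0 + M 1 1) = 0 := by linear_combination h01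
        exact (mul_eq_zero.mp this).resolve_right hT0
      · have : M 1 0 * (M 0 0 + M 1 1) = 0 := by linear_combination h10
        exact (mul_eq_zero.mp this).resolve_right hT0
      · have : (M 0 0 - M 1 1) * (M 0 0 + M 1 1) = 0 := by linear_combination h00
        exact sub_eq_zero.mp ((mul_eq_zero.mp this).resolve_right hT0)
    have hdet2 : (M * M).det = 1 := by rw [← hM2]; exact hdet _
    obtain ⟨v, hv, hMv⟩ := exists_eigenvector (M * M) 1 (by rw [htr2, hdet2]; ring)
    obtain ⟨g, hg00, hg10⟩ := exists_conj_upper (M * M) 1 v hv hMv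
    set N := g.val * (M * M) * (g⁻¹).val with hN
    have hNdet : N.det = 1 := by rw [hN, det_conj', hdet2]
    rw [det_fin_two, hg00, hg10] at hNdet
    have hN11 : N 1 1 = 1 := by linear_combination hNdet
    have hNform : N = !![1, N 0 1; 0, 1] := by
      ext i j; fin_cases i <;> fin_cases j <;> simp [hg00, hg10, hN11]
    have hN01 : N 0 1 ≠ 0 := by
      intro h0
      apply hns2
      have hN1 : N = 1 := by
        rw [hNform, h0]
        ext i j; fin_cases i <;> fin_cases j <;> simp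
      have : M * M = 1 := by
        have h3 : (g⁻¹).val * N * g.val = M * M := by
          rw [hN]
          calc _ = ((g⁻¹).val * g.val) * (M * M) * ((g⁻¹).val * g.val) := by
                simp only [mul_assoc]
            _ = M * M := by rw [inv_mul_val, one_mul, mul_one]
        rw [← h3, hN1, mul_one, inv_mul_val]
      rw [this]; simp
    have hdet' : ∀ σ, (conj g r σ).val.det = 1 := by
      intro σ; rw [conj_val, det_conj', hdet]
    exact conj_eq_zero g (regPerp_eq_bot_of_unipotent h2 hdet' (hirr.conj g) (τ * τ) (N 0 1) hN01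
      (by rw [conj_val, hM2, ← hN]; exact hNform) _ (by rw [trace_conj', hXtr])
      (conj_mem_regPerp_conj hX g))
  · -- no parabolic elements
    push Not at hpar
    have hXall : ∀ σ, (X * (r σ).val).trace = 0 := by
      intro σ
      by_cases h4 : (r σ).val.trace ^ 2 = 4
      · have := hpar σ h4
        rw [trace_mul_two, this.1, this.2.1, this.2.2]
        rw [trace_fin_two] at hXtr
        linear_combination ((r σ).val 1 1) * hXtr
      · exact hX σ h4
    obtain ⟨τ, hτ⟩ := irr_10 hirr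
    have hτ4 : (r τ).val.trace ^ 2 ≠ 4 := fun h4 => hτ (hpar τ h4).2.1
    obtain ⟨α, hα⟩ := hsplit τ
    obtain ⟨v, hv, hMv⟩ := exists_eigenvector (r τ).val α (by rw [hdet τ]; exact hα)
    obtain ⟨g, hg00, hg10⟩ := exists_conj_upper (r τ).val α v hv hMv
    set N := g.val * (r τ).val * (g⁻¹).val with hN
    have hNdet : N.det = 1 := by rw [hN, det_conj', hdet]
    have hNtr : N.trace = (r τ).val.trace := by rw [hN, trace_conj']
    rw [det_fin_two, hg00, hg10] at hNdet
    rw [trace_fin_two, hg00] at hNtr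
    have hne : α ≠ N 1 1 := by
      intro h
      apply hτ4
      rw [← hNtr, ← h]
      rw [← h] at hNdet
      linear_combination 4 * hNdet
    have hne' : α - N 1 1 ≠ 0 := sub_ne_zero.mpr hne
    -- second conjugation
    set t := N 0 1 / (α - N 1 1) with ht
    let u : GL (Fin 2) k := GeneralLinearGroup.mkOfDetNeZero !![1, t; 0, 1] (by simp [det_fin_two])
    have hu : u.val = !![1, t; 0, 1] := rfl
    have huinv : (u⁻¹).val = !![1, -t; 0, 1] := by
      rw [inv_val_of_det_one u (by rw [hu]; simp [det_fin_two]), hu]; simp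
    have hfinal : (conj (u * g) r τ).val = !![α, 0; 0, N 1 1] := by
      have h1 : (conj (u * g) r τ).val = u.val * N * (u⁻¹).val := by
        rw [conj_val, _root_.mul_inv_rev, Units.val_mul, Units.val_mul, hN]
        simp only [mul_assoc]
      rw [h1, hu, huinv]
      have htt : t * (α - N 1 1) = N 0 1 := div_mul_cancel₀ _ hne'
      have e00 := mul_apply_two (!![1, t; 0, 1] * N) !![1, -t; 0, 1] 0 0
      have e01 := mul_apply_two (!![1, t; 0, 1] * N) !![1, -t; 0, 1] 0 1
      have e10 := mul_apply_two (!![1, t; 0, 1] * N) !![1, -t; 0, 1] 1 0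
      have e11 := mul_apply_two (!![1, t; 0, 1] * N) !![1, -t; 0, 1] 1 1
      have f00 := mul_apply_two !![1, t; 0, 1] N 0 0
      have f01 := mul_apply_two !![1, t; 0, 1] N 0 1
      have f10 := mul_apply_two !![1, t; 0, 1] N 1 0
      have f11 := mul_apply_two !![1, t; 0, 1] N 1 1
      rw [f00, f01] at e00 e01
      rw [f10, f11] at e10 e11
      simp only [of_apply, cons_val', cons_val_zero, cons_val_fin_one, cons_val_one, hg00,
        hg10] at e00 e01 e10 e11
      ext i j; fin_cases i <;> fin_cases j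
      · refine e00.trans ?_; simp
      · refine e01.trans ?_; simp; linear_combination -htt
      · refine e10.trans ?_; simp
      · refine e11.trans ?_; simp
    refine conj_eq_zero (u * g) (eq_zero_of_diag h2 (hirr.conj (u * g)) τ α (N 1 1) hne hfinal _
      (by rw [trace_conj', hXtr]) ?_)
    intro σ
    rw [conj_val]
    have : (u * g).val * X * ((u * g)⁻¹).val * ((u * g).val * (r σ).val * ((u * g)⁻¹).val) =
        (u * g).val * (X * (r σ).val) * ((u * g)⁻¹).val := by
      calc _ = (u * g).val * X * (((u * g)⁻¹).val * (u * g).val) * (r σ).val *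
              ((u * g)⁻¹).val := by simp only [mul_assoc]
        _ = _ := by rw [inv_mul_val, mul_one]; simp only [mul_assoc]
    rw [this, trace_conj', hXall]

end Fermat.Agent.TWGroup
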