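import Mathlib.Topology.Compactification.OnePoint.ProjectiveLine
import Fermat.Agent.TWGroup.Regular

/-!
# Fixed points of elements of `GL₂(k)` on `ℙ¹(k)`
-/

namespace Fermat.Agent.TWGroup

open Matrix OnePoint Matrix.GeneralLinearGroup

variable {k : Type*} [Field k] [DecidableEq k]

lemma exists_smul_infty_eq (x : OnePoint k) : ∃ γ : GL (Fin 2) k, γ • (∞ : OnePoint k) = x := by
  cases x with
  | infty => exact ⟨1, one_smul _ _⟩
  | coe c =>
    refine ⟨GeneralLinearGroup.mkOfDetNeZero !![c, -1; 1, 0] (by simp [det_fin_two]), ?_⟩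
    rw [smul_infty_eq_ite]
    simp [GeneralLinearGroup.mkOfDetNeZero]

lemma upper_smul_infty (v : k) : (upperRightHom v) • (∞ : OnePoint k) = ∞ := by
  rw [smul_infty_eq_self_iff]; simp

lemma upper_smul_coe (v c : k) :
    (upperRightHom v) • (c : OnePoint k) = ((c + v : k) : OnePoint k) := by
  rw [smul_some_eq_ite]; simp

/-- a non-scalar upper triangular matrix fixes one or two points. -/
lemma fixed_of_upper (g : GL (Fin 2) k) (hns : g.val ∉ Set.range (Matrix.scalar (Fin 2)))
    (hg : g 1 0 = 0) :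
    (g.IsParabolic ∧ ∀ x : OnePoint k, g • x = x ↔ x = ∞) ∨
    (¬ g.IsParabolic ∧ ∃ c : k, ∀ x : OnePoint k, g • x = x ↔ (x = ∞ ∨ x = (c : OnePoint k))) := by
  have hinf : g • (∞ : OnePoint k) = ∞ := smul_infty_eq_self_iff.mpr hg
  have hdet := g.det_ne_zero
  rw [det_fin_two, hg, mul_zero, sub_zero] at hdet
  have h11 : g 1 1 ≠ 0 := right_ne_zero_of_mul hdet
  have hsm : ∀ c : k, g • (c : OnePoint k) = c ↔ (g 0 0 - g 1 1) * c + g 0 1 = 0 := by
    intro c
    rw [smul_some_eq_ite, hg, zero_mul, zero_add, if_neg h11, coe_eq_coe, div_eq_iff h11]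
    constructor
    · intro h; linear_combination h
    · intro h; linear_combination h
  by_cases hd : g 0 0 = g 1 1
  · left
    have h01 : g 0 1 ≠ 0 := by
      intro h0
      apply hns
      refine ⟨g 0 0, ?_⟩
      ext i j; fin_cases i <;> fin_cases j <;> simp [h0, hg, hd]
    refine ⟨(GeneralLinearGroup.isParabolic_iff_of_upperTriangular hg).mpr ⟨hd, h01⟩, ?_⟩
    intro x
    cases x with
    | infty => simp [hinf]
    | coe c =>
      rw [hsm]
      simp [hd, h01]
  · right
    refine ⟨fun h => hd ((GeneralLinearGroup.isParabolic_iff_of_upperTriangular hg).mp h).1,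
      -(g 0 1) / (g 0 0 - g 1 1), ?_⟩
    have hd' : g 0 0 - g 1 1 ≠ 0 := sub_ne_zero.mpr hd
    intro x
    cases x with
    | infty => simp [hinf]
    | coe c =>
      rw [hsm]
      simp only [coe_ne_infty, coe_eq_coe, false_or]
      rw [eq_div_iff hd']
      constructor
      · intro h; linear_combination h
      · intro h; linear_combination h

omit [DecidableEq k] in
lemma scalar_conj (g h : GL (Fin 2) k) :
    (g⁻¹ * h * g).val ∈ Set.range (Matrix.scalar (Fin 2)) ↔
      h.val ∈ Set.range (Matrix.scalar (Fin 2)) := by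
  constructor
  · rintro ⟨a, ha⟩
    refine ⟨a, ?_⟩
    have h1 : g.val * (g⁻¹ * h * g).val * (g⁻¹).val = h.val := by
      rw [← Units.val_mul, ← Units.val_mul]
      congr 1; group
    rw [← h1, ← ha]
    rw [← (Matrix.scalar_commute a (fun r => mul_comm _ _) g.val).eq, mul_assoc, mul_inv_val,
      mul_one]
  · rintro ⟨a, ha⟩
    refine ⟨a, ?_⟩
    rw [Units.val_mul, Units.val_mul, ← ha,
      ← (Matrix.scalar_commute a (fun r => mul_comm _ _) (g⁻¹).val).eq, mul_assoc, inv_mul_val,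
      mul_one]

/-- a non-scalar element with a fixed point fixes one or two points. -/
lemma fixed_of_fixed (g : GL (Fin 2) k) (hns : g.val ∉ Set.range (Matrix.scalar (Fin 2)))
    {x₁ : OnePoint k} (hx₁ : g • x₁ = x₁) :
    (g.IsParabolic ∧ ∀ x : OnePoint k, g • x = x ↔ x = x₁) ∨
    (¬ g.IsParabolic ∧ ∃ x₂ ≠ x₁, ∀ x : OnePoint k, g • x = x ↔ (x = x₁ ∨ x = x₂)) := by
  obtain ⟨γ, hγ⟩ := exists_smul_infty_eq x₁
  have hγ' : γ⁻¹ • x₁ = ∞ := by rw [← hγ, inv_smul_smul]
  have hup : (γ⁻¹ * g * γ) 1 0 = 0 := by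
    rw [← smul_infty_eq_self_iff, mul_smul, mul_smul, hγ, hx₁, hγ']
  have key : ∀ x : OnePoint k, g • x = x ↔ (γ⁻¹ * g * γ) • (γ⁻¹ • x) = γ⁻¹ • x := by
    intro x
    rw [mul_smul, mul_smul, smul_inv_smul]
    exact (smul_left_cancel_iff _).symm
  rcases fixed_of_upper (γ⁻¹ * g * γ) (by rwa [scalar_conj]) hup with ⟨h1, h2⟩ | ⟨h1, c, h2⟩
  · left
    refine ⟨(isParabolic_conj_iff' _ _).mp h1, ?_⟩
    intro x
    rw [key, h2, inv_smul_eq_iff, hγ]
  · right
    refine ⟨fun h => h1 ((isParabolic_conj_iff' _ _).mpr h), γ • (c : OnePoint k), ?_, ?_⟩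
    · rw [← hγ]
      intro h
      exact coe_ne_infty c (smul_left_cancel γ h)
    · intro x
      rw [key, h2, inv_smul_eq_iff, hγ, inv_smul_eq_iff]

/-- an element with an eigenvalue in `k` has a fixed point. -/
lemma exists_fixed (g : GL (Fin 2) k) (α : k) (hα : α ^ 2 - g.val.trace * α + g.val.det = 0) :
    ∃ x : OnePoint k, g • x = x := by
  obtain ⟨v, hv, hgv⟩ := exists_eigenvector g.val α hα
  have e0 := congrFun hgv 0
  have e1 := congrFun hgv 1
  simp only [mulVec, dotProduct, Fin.sum_univ_two, Pi.smul_apply, smul_eq_mul] at e0 e1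
  have hα0 : α ≠ 0 := by
    rintro rfl
    apply g.det_ne_zero
    simpa using hα
  by_cases h1 : v 1 = 0
  · refine ⟨∞, ?_⟩
    rw [smul_infty_eq_self_iff]
    rw [h1, mul_zero, add_zero, mul_zero] at e1
    refine (mul_eq_zero.mp e1).resolve_right ?_
    intro h0
    apply hv
    ext i; fin_cases i
    · exact h0
    · exact h1
  · refine ⟨((v 0 / v 1 : k) : OnePoint k), ?_⟩
    rw [smul_some_eq_ite]
    have h2 : g 1 0 * (v 0 / v 1) + g 1 1 = α := by
      field_simp
      linear_combination e1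
    rw [h2, if_neg hα0, coe_eq_coe]
    field_simp
    linear_combination e0

section Finite

variable [Fintype k]

/-- A suitable power of a parabolic element is a non-trivial unipotent. -/
lemma parabolic_pow (g : GL (Fin 2) k) (hg : g.IsParabolic) {x : OnePoint k} (hx : g • x = x) :
    ∃ γ : GL (Fin 2) k, ∃ w : k, w ≠ 0 ∧ γ • (∞ : OnePoint k) = x ∧
      g ^ (Fintype.card k - 1) = γ * upperRightHom w * γ⁻¹ := by
  obtain ⟨γ, hγ⟩ := exists_smul_infty_eq x
  have hγ' : γ⁻¹ • x = ∞ := by rw [← hγ, inv_smul_smul]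
  have hup : (γ⁻¹ * g * γ) 1 0 = 0 := by
    rw [← smul_infty_eq_self_iff, mul_smul, mul_smul, hγ, hx, hγ']
  have hpar : (γ⁻¹ * g * γ).IsParabolic := (isParabolic_conj_iff' _ _).mpr hg
  rw [GeneralLinearGroup.isParabolic_iff_of_upperTriangular hup] at hpar
  obtain ⟨hd, h01⟩ := hpar
  set g' := γ⁻¹ * g * γ with hg'
  have hdet := g'.det_ne_zero
  rw [det_fin_two, hup, mul_zero, sub_zero] at hdet
  have h00 : g' 0 0 ≠ 0 := left_ne_zero_of_mul hdet
  have hform : g'.val = !![g' 0 0, g' 0 1; 0, g' 0 0] := by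
    ext i j; fin_cases i <;> fin_cases j <;> simp [hup, hd]
  have hpow : ∀ n : ℕ, g'.val ^ n = !![g' 0 0 ^ n, n * g' 0 0 ^ (n - 1) * g' 0 1; 0, g' 0 0 ^ n] := by
    intro n
    induction n with
    | zero => ext i j; fin_cases i <;> fin_cases j <;> simp
    | succ n ih =>
      rw [pow_succ, ih, hform]
      rcases Nat.eq_zero_or_pos n with h | h
      · subst h
        ext i j; fin_cases i <;> fin_cases j <;> simp [mul_apply_two]
      · obtain ⟨m, rfl⟩ : ∃ m, n = m + 1 := ⟨n - 1, by omega⟩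
        ext i j; fin_cases i <;> fin_cases j <;> simp [mul_apply_two] <;> ring
  have hcard : 1 < Fintype.card k := Fintype.one_lt_card
  refine ⟨γ, ((Fintype.card k - 1 : ℕ) : k) * g' 0 0 ^ (Fintype.card k - 1 - 1) * g' 0 1, ?_, hγ, ?_⟩
  · refine mul_ne_zero (mul_ne_zero ?_ (pow_ne_zero _ h00)) h01
    rw [Nat.cast_sub hcard.le]
    simp
  · have h1 : g' ^ (Fintype.card k - 1) = upperRightHom
        (((Fintype.card k - 1 : ℕ) : k) * g' 0 0 ^ (Fintype.card k - 1 - 1) * g' 0 1) := by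
      apply Units.ext
      rw [Units.val_pow_eq_pow_val, hpow, FiniteField.pow_card_sub_one_eq_one _ h00]
      rfl
    rw [← h1]
    have h2 : g' ^ (Fintype.card k - 1) = γ⁻¹ * g ^ (Fintype.card k - 1) * γ := by
      have := conj_pow (a := γ⁻¹) (b := g) (i := Fintype.card k - 1)
      rw [inv_inv] at this
      rw [hg', this]
    rw [h2]
    group

end Finite

end Fermat.Agent.TWGroup
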